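import Fermat.Agent.S28.Analytic.Main

/-!
# RED/Gauss: the `t`-expansion of `j((aτ+b)/e)`: integrality and pole order
-/

set_option autoImplicit false
noncomputable section
open UpperHalfPlane Function Complex ModularForm CongruenceSubgroup Polynomial ModularCurve
open scoped Manifold MatrixGroups
open Fermat.Agent.S24 Fermat.Agent.Common Fermat.Agent.S28

namespace Fermat.Agent.RED

local notation "Δ" => ModularForm.discriminant

theorem E4_coeff_int (n : ℕ) : ∃ z : ℤ, (qExpansion 1 E₄).coeff n = z := by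
  rw [qExpansion_E4, PowerSeries.coeff_map]
  exact ⟨_, rfl⟩

variable (N : ℕ) [NeZero N] (a e : ℕ) [NeZero a] [NeZero e] (b : ℤ)

theorem coeff_lau_E4_comp_tri_mem (h : e ∣ a * N) (j : ℤ) :
    (lau N ⟨(E₄ : ℍ → ℂ) ∘ tri a e b,
      HolPer_le_MF N (comp_tri_mem_HolPer N a e b E4_mem_HolPer_one h)⟩).coeff j ∈ NInt N := by
  rw [lau_of_mem_HolPer N (comp_tri_mem_HolPer N a e b E4_mem_HolPer_one h)]
  rcases lt_or_ge j 0 with hj | hj
  · rw [ofPowerSeries_coeff_of_neg _ hj]
    exact (NInt N).zero_mem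
  · lift j to ℕ using hj
    rw [HahnSeries.ofPowerSeries_apply_coeff,
      qExpansion_comp_tri N a e b E4_mem_HolPer_one h]
    split_ifs
    · obtain ⟨z, hz⟩ := E4_coeff_int (j / (a * N / e))
      rw [hz]
      exact (NInt N).mul_mem (pow_mem (mem_NInt_of_isIntegral N (isIntegral_exp e b)) _)
        (intCast_mem _ z)
    · exact (NInt N).zero_mem

theorem coeff_lau_E4_comp_tri_neg (h : e ∣ a * N) {j : ℤ} (hj : j < 0) :
    (lau N ⟨(E₄ : ℍ → ℂ) ∘ tri a e b,
      HolPer_le_MF N (comp_tri_mem_HolPer N a e b E4_mem_HolPer_one h)⟩).coeff j = 0 := by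
  rw [lau_of_mem_HolPer N (comp_tri_mem_HolPer N a e b E4_mem_HolPer_one h)]
  exact ofPowerSeries_coeff_of_neg _ hj

/-- The `t`-expansion of `j((aτ+b)/e)` has coefficients in `ℤ[1/N]`-integral numbers and a pole of
order at most `aN/e`. -/
theorem lau_Jfun_comp_tri_props (h : e ∣ a * N) (he : e ∣ N)
    (hmem : (fun τ => Jfun (tri a e b τ)) ∈ MF N) :
    (∀ k, (lau N ⟨_, hmem⟩).coeff k ∈ NInt N) ∧
      ∀ k : ℤ, k < -((a * N / e : ℕ) : ℤ) → (lau N ⟨_, hmem⟩).coeff k = 0 := by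
  set E : MF N := ⟨(E₄ : ℍ → ℂ) ∘ tri a e b,
      HolPer_le_MF N (comp_tri_mem_HolPer N a e b E4_mem_HolPer_one h)⟩ with hE
  set D : MF N := ⟨Δ ∘ tri a e b,
      HolPer_le_MF N (comp_tri_mem_HolPer N a e b (discriminant_mem_HolPer 1) h)⟩ with hD
  have hDU : IsNUnit N (lau N D) := isNUnit_lau_discriminant_comp_tri N a e b h he
  have hDo : (lau N D).order = ((a * N / e : ℕ) : ℤ) := order_lau_discriminant_comp_tri N a e b h
  have hmul : (⟨_, hmem⟩ : MF N) * D = E ^ 3 := by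
    apply Subtype.ext
    funext τ
    have hΔ : Δ (tri a e b τ) ≠ 0 := discriminant_ne_zero _
    simp only [hE, hD, MulMemClass.coe_mul, SubmonoidClass.coe_pow, Pi.mul_apply, Pi.pow_apply,
      Function.comp_apply, Jfun]
    field_simp
  have h2 := congrArg (lau N) hmul
  rw [map_mul, map_pow] at h2
  have h3 : lau N ⟨_, hmem⟩ = lau N E ^ 3 * (lau N D)⁻¹ := by
    rw [← h2, mul_assoc, mul_inv_cancel₀ hDU.1, mul_one]
  have hEint : ∀ k, (lau N E).coeff k ∈ NInt N := coeff_lau_E4_comp_tri_mem N a e b h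
  have hEneg : ∀ k : ℤ, k < 0 → (lau N E).coeff k = 0 := fun k hk =>
    coeff_lau_E4_comp_tri_neg N a e b h hk
  have hE3int : ∀ k, (lau N E ^ 3).coeff k ∈ NInt N := by
    rw [pow_succ, pow_two]
    exact coeff_mul_mem (coeff_mul_mem hEint hEint) hEint
  refine ⟨?_, ?_⟩
  · rw [h3]
    exact coeff_mul_mem hE3int hDU.2.2
  · intro k hk
    rw [h3]
    by_cases hE0 : lau N E = 0
    · rw [hE0]; simp
    · apply HahnSeries.coeff_eq_zero_of_lt_order
      rw [HahnSeries.order_mul (pow_ne_zero _ hE0) (inv_ne_zero hDU.1), HahnSeries.order_pow,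
        Unit.order_inv' hDU.1, hDo]
      have h0 : 0 ≤ (lau N E).order := (HahnSeries.le_order_iff_forall hE0).mpr hEneg
      simp only [nsmul_eq_mul]
      push_cast at hk ⊢
      linarith

end Fermat.Agent.RED
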