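import Fermat.Agent.S28.Analytic.Main
import Fermat.Agent.S24.HolPerMore

/-!
# RED/Gauss: the `t`-expansion `lau N` and the translation `τ ↦ τ + 1`
-/

set_option autoImplicit false
noncomputable section
open UpperHalfPlane Function Complex ModularForm CongruenceSubgroup Polynomial ModularCurve
open scoped Manifold MatrixGroups
open Fermat.Agent.S24 Fermat.Agent.Common Fermat.Agent.S28

namespace Fermat.Agent.RED

local notation "Δ" => ModularForm.discriminant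

theorem discriminant_vadd_one (τ : ℍ) : Δ ((1 : ℝ) +ᵥ τ) = Δ τ := by
  have h := (mem_HolPer_iff.mp (discriminant_mem_HolPer 1)).2.1 τ
  simpa using h

theorem shift_mem_MF {N : ℕ} {f : ℍ → ℂ} (hf : f ∈ MF N) :
    (fun τ => f ((1 : ℝ) +ᵥ τ)) ∈ MF N := by
  obtain ⟨M, hM⟩ := hf
  refine ⟨M, ?_⟩
  have h1 := shift_mem_HolPer hM
  have h2 : (fun τ => (f * Δ ^ M) ((1 : ℝ) +ᵥ τ)) = (fun τ => f ((1 : ℝ) +ᵥ τ)) * Δ ^ M := by
    funext τ
    simp [discriminant_vadd_one]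
  rwa [h2] at h1

/-- The `t`-expansion of `f(τ + 1)` is the rotation of the `t`-expansion of `f`. -/
theorem lau_shift (N : ℕ) [NeZero N] {f : ℍ → ℂ} (hf : f ∈ MF N)
    (hf' : (fun τ => f ((1 : ℝ) +ᵥ τ)) ∈ MF N) :
    lau N ⟨_, hf'⟩ = rot (zetaU N) (lau N ⟨f, hf⟩) := by
  obtain ⟨M, hM⟩ := id hf
  have h2 : (fun τ => (f * Δ ^ M) ((1 : ℝ) +ᵥ τ)) = (fun τ => f ((1 : ℝ) +ᵥ τ)) * Δ ^ M := by
    funext τ
    simp [discriminant_vadd_one]
  have h1 : (fun τ => f ((1 : ℝ) +ᵥ τ)) * Δ ^ M ∈ HolPer N := by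
    rw [← h2]; exact shift_mem_HolPer hM
  rw [lau_eq_div N ⟨_, hf'⟩ M h1, lau_eq_div N ⟨f, hf⟩ M hM, rot_div, rot_pow]
  have h4 : shiftHolPer N (discH N) = discH N := by
    apply Subtype.ext
    funext τ
    exact discriminant_vadd_one τ
  have h3 : rot (zetaU N) (lauDisc N) = lauDisc N := by
    rw [lauDisc, ← qExpLaurent_shift, h4]
  have h5 : shiftHolPer N ⟨f * Δ ^ M, hM⟩ = ⟨(fun τ => f ((1 : ℝ) +ᵥ τ)) * Δ ^ M, h1⟩ :=
    Subtype.ext h2
  rw [h3, ← qExpLaurent_shift, h5]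

end Fermat.Agent.RED
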