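import Fermat.Agent.RED.Gauss.FamilyDefs
import Fermat.Agent.RED.Gauss.LauShift
import Fermat.Agent.RED.Gauss.JTri
import Fermat.Agent.S28.Analytic.Main
import Fermat.Agent.S24.Rot

/-!
# RED/Gauss: the analytic input (extension of `S28.exists_rootFamily`)
-/

set_option autoImplicit false
noncomputable section
open UpperHalfPlane Function Complex ModularForm CongruenceSubgroup Polynomial ModularCurve
open scoped Manifold MatrixGroups
open Fermat.Agent.S24 Fermat.Agent.Common Fermat.Agent.S28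

namespace Fermat.Agent.RED

/-- `exp(2πi/N)` as a unit. -/
def zetaN (N : ℕ) : ℂˣ :=
  Units.mk0 (Complex.exp (2 * Real.pi * Complex.I / N)) (Complex.exp_ne_zero _)

theorem zetaN_eq_zetaU (N : ℕ) : zetaN N = zetaU N := rfl

/-- The expansion of the conjugate attached to `T⁻¹ • c` is the rotation of that attached to
`c`. -/
theorem lau_conj_T_inv (N : ℕ) [NeZero N] {v : ℍ → ℂ} (hv : IsGamma0Inv N v) (c : Q N)
    (h1 : conj N v c ∈ MF N) (h2 : conj N v (ModularGroup.T⁻¹ • c) ∈ MF N) :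
    lau N ⟨_, h2⟩ = rot (zetaN N) (lau N ⟨_, h1⟩) := by
  have h3 : conj N v (ModularGroup.T⁻¹ • c) = fun τ => conj N v c ((1 : ℝ) +ᵥ τ) := by
    funext τ
    rw [← conj_smul hv, modular_T_smul]
  have h4 : (fun τ => conj N v c ((1 : ℝ) +ᵥ τ)) ∈ MF N := h3 ▸ h2
  have h5 : (⟨_, h2⟩ : MF N) = ⟨_, h4⟩ := Subtype.ext h3
  rw [h5, zetaN_eq_zetaU]
  exact lau_shift N h1 h4

/-- Integrality and pole order of the expansions of `j(d g τ)`. -/
theorem lau_Jd_comp_props (N d : ℕ) [NeZero N] [NeZero d] (hd : d ∣ N) (g : SL(2, ℤ))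
    (hmem : (fun τ => Jfun (heckeDiagMatrix d • (g • τ))) ∈ MF N) :
    (∀ k, (lau N ⟨_, hmem⟩).coeff k ∈ NInt N) ∧
      ∀ k : ℤ, k * d < -((N : ℤ) * (Int.gcd d (g 1 0) : ℤ) ^ 2) →
        (lau N ⟨_, hmem⟩).coeff k = 0 := by
  obtain ⟨a, b, e, ha, he, hae, hag, hh⟩ := isSLInvariant_Jfun.exists_hermite d g
  lift a to ℕ using ha.le
  lift e to ℕ using he.le
  have ha' : a ≠ 0 := by rintro rfl; simp at ha
  have he' : e ≠ 0 := by rintro rfl; simp at he
  have : NeZero a := ⟨ha'⟩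
  have : NeZero e := ⟨he'⟩
  have hae' : a * e = d := by exact_mod_cast hae
  have hne : (((a : ℤ) : ℝ)) * ((e : ℤ) : ℝ) ≠ 0 := by
    simp [ha', he']
  have h1 : (fun τ => Jfun (heckeDiagMatrix d • (g • τ))) = fun τ => Jfun (tri a e b τ) := by
    funext τ
    rw [hh hne τ]
    congr 2
  have heN : e ∣ N := (Dvd.intro_left a hae').trans hd
  have heaN : e ∣ a * N := Dvd.dvd.mul_left heN a
  have hmem' : (fun τ => Jfun (tri a e b τ)) ∈ MF N := h1 ▸ hmem
  have h2 : (⟨_, hmem⟩ : MF N) = ⟨_, hmem'⟩ := Subtype.ext h1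
  rw [h2]
  obtain ⟨p1, p2⟩ := lau_Jfun_comp_tri_props N a e b heaN heN hmem'
  refine ⟨p1, fun k hk => p2 k ?_⟩
  rw [← hag] at hk
  obtain ⟨m, rfl⟩ := heN
  have h3 : a * (e * m) / e = a * m := by
    rw [show a * (e * m) = e * (a * m) by ring]
    exact Nat.mul_div_cancel_left _ (Nat.pos_of_ne_zero he')
  rw [h3]
  rw [← hae'] at hk
  push_cast at hk ⊢
  have hpos : (0 : ℤ) < (a : ℤ) * e := by positivity
  by_contra hcon
  rw [not_lt] at hcon
  have := mul_le_mul_of_nonneg_right hcon hpos.le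
  nlinarith

theorem lau_JN_comp_top (N : ℕ) [NeZero N] (g : SL(2, ℤ)) (hg : g ∉ Gamma0 N)
    (hmem : (fun τ => Jfun (heckeDiagMatrix N • (g • τ))) ∈ MF N) :
    (lau N ⟨_, hmem⟩).coeff (-((N : ℤ) ^ 2)) = 0 := by
  apply (lau_Jd_comp_props N N dvd_rfl g hmem).2
  have hN : 0 < N := Nat.pos_of_ne_zero (NeZero.ne N)
  have hc : ¬ (N : ℤ) ∣ g 1 0 := by
    intro h
    exact hg (Gamma0_mem.mpr ((ZMod.intCast_zmod_eq_zero_iff_dvd _ _).mpr h))
  have h1 : Int.gcd N (g 1 0) ∣ N := by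
    have := Int.gcd_dvd_left (N : ℤ) (g 1 0)
    exact_mod_cast this
  have h2 : Int.gcd N (g 1 0) ≠ N := by
    intro h
    apply hc
    have := Int.gcd_dvd_right (N : ℤ) (g 1 0)
    rwa [h] at this
  have h3 : Int.gcd N (g 1 0) < N := lt_of_le_of_ne (Nat.le_of_dvd hN h1) h2
  have h4 : ((Int.gcd N (g 1 0) : ℕ) : ℤ) < N := by exact_mod_cast h3
  have h5 : (0 : ℤ) ≤ ((Int.gcd N (g 1 0) : ℕ) : ℤ) := Int.natCast_nonneg _
  have h6 : (0 : ℤ) < N := by exact_mod_cast hN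
  have h7 : ((Int.gcd N (g 1 0) : ℕ) : ℤ) ^ 2 < (N : ℤ) ^ 2 := by nlinarith
  nlinarith

/-- [GAUSS-AN]: the S28 root family on the explicit index set `Q N = SL(2,ℤ)/Γ₀(N)`, with the extra
properties, and compatibility with the rotation `t ↦ ζ_N t`. -/
theorem exists_rootFamilyExt (N : ℕ) [NeZero N] :
    ∃ (u : LaurentSeries ℤ) (U : Q N → LaurentSeries ℂ) (H : ℕ → Q N → LaurentSeries ℂ),
      IsRootFamily N u (Q.base N) U H ∧ IsRootFamilyExt N (Q.base N) U (H N) ∧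
      (∀ c, U (ModularGroup.T⁻¹ • c) = rot (zetaN N) (U c)) ∧
      (∀ d, d ∣ N → ∀ c, H d (ModularGroup.T⁻¹ • c) = rot (zetaN N) (H d c)) ∧
      (∀ d, d ∣ N → ∀ c k, (H d c).coeff k ∈ NInt N) := by
  obtain ⟨u, v, hvinv, hvinvM, hvM, hv0, hlau⟩ := exists_unit N
  have hv : IsGamma0Inv N v := hvinv
  have huS : ∀ c : Q N, conj N v c ∈ MF N := fun c => (hvM (Quotient.out c)⁻¹).choose
  have huS' : ∀ c : Q N, conj N v⁻¹ c ∈ MF N := fun c => hvinvM (Quotient.out c)⁻¹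
  have hJd : ∀ (d : ℕ) [NeZero d], d ∣ N → IsGamma0Inv N (Jd d) := fun d _ hd γ hγ τ =>
    Jd_invariant N d hd γ hγ τ
  have hJdS : ∀ (d : ℕ) [NeZero d], d ∣ N → ∀ c : Q N, conj N (Jd d) c ∈ MF N :=
    fun d _ hd c => Jd_comp_mem_MF N d hd (Quotient.out c)⁻¹
  have hpoly : ∀ f : MF N, IsSL2Inv (f : ℍ → ℂ) → ∃ P : ℂ[X], f = aeval (jM N) P :=
    fun f hf => exists_eq_aeval_jM N f hf
  have hLJ : lauAlg N (jM N) = jN N := lauAlg_jM N
  have hunit : ∀ c : Q N, IsNUnit N (lau N ⟨conj N v c, huS c⟩) := fun c =>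
    (hvM (Quotient.out c)⁻¹).choose_spec.1
  have hvne : ∀ τ, v τ ≠ 0 := by
    have h1 : v⁻¹ ∈ MF N := by
      have := hvinvM 1
      simp only [one_smul] at this
      exact this
    refine ne_zero_of_inv_mem_MF N hv0 h1 ?_
    have := (hunit (Q.base N)).1
    simpa only [conj_base hv] using this
  have hout : ∀ c : Q N, c ≠ Q.base N → (Quotient.out c)⁻¹ ∉ Gamma0 N := by
    intro c hc hmem
    apply hc
    have h1 : Quotient.out c ∈ Gamma0 N := by simpa using inv_mem hmem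
    have h2 : ((Quotient.out c : SL(2, ℤ)) : Q N) = c := Quotient.out_eq' c
    by_contra hne
    exact not_mem_of_ne_base (N := N) (g := Quotient.out c) (by rw [h2]; exact hne) h1
  have hHint : ∀ (d : ℕ) [NeZero d] (hd : d ∣ N) (c : Q N) (k : ℤ),
      (lauAlg N ⟨conj N (Jd d) c, hJdS d hd c⟩).coeff k ∈ NInt N := fun d _ hd c k =>
    (lau_Jd_comp_props N d hd (Quotient.out c)⁻¹ (hJdS d hd c)).1 k
  refine ⟨u, fun c => lauAlg N ⟨conj N v c, huS c⟩,
    fun d c => if h : d ∣ N then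
      haveI : NeZero d := ⟨fun h0 => NeZero.ne N (by rw [h0] at h; exact Nat.eq_zero_of_zero_dvd h)⟩
      lauAlg N ⟨conj N (Jd d) c, hJdS d h c⟩ else 0, ?_, ?_, ?_, ?_, ?_⟩
  · refine
      { U_c₀ := ?_
        U_ne := fun c => (hunit c).1
        U_int := fun c => (hunit c).2.1
        Uinv_int := fun c => (hunit c).2.2
        order_neg := ?_
        charpoly_coeff := ?_
        prod_inv := ?_
        H_c₀ := ?_
        lagrange_coeff := ?_ }
    · have h2 : (⟨conj N v (Q.base N), huS (Q.base N)⟩ : MF N) = ⟨v, hv0⟩ :=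
        Subtype.ext (conj_base hv)
      rw [← hlau, lauAlg_apply, h2]
    · intro c hc
      exact (hvM (Quotient.out c)⁻¹).choose_spec.2 (hout c hc)
    · intro i
      rw [← hLJ]
      exact charpoly_coeff_of (MF N) (lauAlg N) _ hpoly hv huS i
    · rw [← hLJ]
      exact prod_inv_of (MF N) (lauAlg N) _ hpoly hv hvne huS huS'
    · intro d _ hd
      rw [dif_pos hd, lauAlg_apply]
      have h1 : (fun τ => Jfun (heckeDiagMatrix d • τ)) ∈ MF N := by
        have := hJdS d hd (Q.base N)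
        rwa [conj_base (hJd d hd)] at this
      have h2 : (⟨conj N (Jd d) (Q.base N), hJdS d hd (Q.base N)⟩ : MF N) = ⟨_, h1⟩ :=
        Subtype.ext (conj_base (hJd d hd))
      rw [h2]
      exact lau_Jd N d hd h1
    · intro d hd i
      have : NeZero d := ⟨fun h0 => NeZero.ne N (by rw [h0] at hd; exact Nat.eq_zero_of_zero_dvd hd)⟩
      simp only [dif_pos hd]
      rw [← hLJ]
      exact lagrange_coeff_of (MF N) (lauAlg N) _ hpoly hv (hJd d hd) huS (hJdS d hd) i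
  · simp only [dif_pos (dvd_refl N)]
    refine
      { H_int := fun c k => hHint N dvd_rfl c k
        H_top := fun c hc => lau_JN_comp_top N (Quotient.out c)⁻¹ (hout c hc) (hJdS N dvd_rfl c)
        charpolyH_coeff := ?_
        lagrangeU_coeff := ?_ }
    · intro i
      rw [← hLJ]
      exact charpoly_coeff_of (MF N) (lauAlg N) _ hpoly (hJd N dvd_rfl) (hJdS N dvd_rfl) i
    · intro i
      rw [← hLJ]
      exact lagrange_coeff_of (MF N) (lauAlg N) _ hpoly (hJd N dvd_rfl) hv (hJdS N dvd_rfl) huS i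
  · intro c
    exact lau_conj_T_inv N hv c (huS c) (huS _)
  · intro d hd c
    have : NeZero d := ⟨fun h0 => NeZero.ne N (by rw [h0] at hd; exact Nat.eq_zero_of_zero_dvd hd)⟩
    simp only [dif_pos hd]
    exact lau_conj_T_inv N (hJd d hd) c (hJdS d hd c) (hJdS d hd _)
  · intro d hd c k
    have : NeZero d := ⟨fun h0 => NeZero.ne N (by rw [h0] at hd; exact Nat.eq_zero_of_zero_dvd hd)⟩
    simp only [dif_pos hd]
    exact hHint d hd c k

end Fermat.Agent.RED
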