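import Fermat.Agent.RED.Gauss.Modular
import Fermat.Agent.RED.Deuring.Basic

/-!
# RED/Gauss: the Gauss datum of the modular function fields (valuation ring, reduction map)
-/

set_option autoImplicit false
set_option linter.unusedSectionVars false
noncomputable section
open Polynomial ModularCurve IntermediateField

namespace Fermat.Agent.RED

open Fermat.Agent.S28 Fermat.Agent.RED.Gauss

section Datum

variable {L : Type*} [Field L] [Algebra ℚ L] {A : ValuationSubring L}
variable {k : Type*} [Field k] (π : A →+* k)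
variable {N : ℕ} [NeZero N] {ℓ : ℕ} [Fact ℓ.Prime] {n : ℕ} {u : LaurentSeries ℤ}

theorem iota_jqModC : iota A (jqModC A) = jqModC L := by rw [iota, coeffMap_jqModC]

theorem pi_jqModC : pi π (jqModC A) = jqModC k := by rw [pi, coeffMap_jqModC]

theorem iota_castLS : iota A (castLS A u) = castLS L u := by rw [iota, coeffMap_castLS]

theorem pi_castLS : pi π (castLS A u) = castLS k u := by rw [pi, coeffMap_castLS]

theorem jqModC_mem_baseChange :
    jqModC L ∈ laurentBaseChange L (modularFunctionFieldFull N) := by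
  rw [← coeffEmb_jq]
  exact coeffEmb_mem_laurentBaseChange L (jqModC_mem_full ℚ N)

theorem qExpand_jqModC_mem_baseChange {d : ℕ} [NeZero d] (hd : d ∣ N) :
    qExpand L d (jqModC L) ∈ laurentBaseChange L (modularFunctionFieldFull N) := by
  have : qExpand L d (jqModC L) = coeffEmb L (qExpand ℚ d (jqModC ℚ)) := by
    rw [coeffEmb, coeffMap_qExpand, coeffMap_jqModC]
  rw [this]
  exact coeffEmb_mem_laurentBaseChange L (jqModCd_mem_full ℚ N hd)

theorem castLS_mem_baseChange (h : IsCoreExt N ℓ n u) :
    castLS L u ∈ laurentBaseChange L (modularFunctionFieldFull N) := by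
  rw [← coeffEmb_castLS]
  exact coeffEmb_mem_laurentBaseChange L h.u_mem

/-- (M1): helper5's `CoreData` for the modular function field. -/
theorem coreData [CharP k ℓ] (hπ : Function.Surjective π) (hn : 0 < n) (h : IsCoreExt N ℓ n u) :
    CoreData π (laurentBaseChange L (modularFunctionFieldFull N)) n (jqModC A)
      (fun i => castLS A u ^ (i : ℕ)) where
  surj := hπ
  pos := hn
  t_mem := by rw [iota_jqModC]; exact jqModC_mem_baseChange
  w_mem := fun i => by
    rw [map_pow, iota_castLS]; exact pow_mem (castLS_mem_baseChange h) _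
  span := by
    intro y hy
    obtain ⟨g, f, hg, hrel⟩ := inSpan_of_mem_baseChange L hn h y hy
    refine ⟨g, f, ?_, ?_⟩
    · rintro rfl; exact hg (map_zero _)
    · simp only [iota_jqModC, map_pow, iota_castLS]
      exact hrel
  indep := by
    intro f hf
    simp only [pi_jqModC, map_pow, pi_castLS] at hf
    exact indep_field h.core k f hf


theorem aeval_mem_intermediateField {K 𝕃 : Type*} [Field K] [Field 𝕃] [Algebra K 𝕃]
    (E : IntermediateField K 𝕃) {x : 𝕃} (hx : x ∈ E) (p : K[X]) : aeval x p ∈ E := by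
  induction p using Polynomial.induction_on' with
  | add p q hp hq => rw [map_add]; exact add_mem hp hq
  | monomial m a => rw [aeval_monomial]; exact mul_mem (E.algebraMap_mem a) (pow_mem hx m)

theorem castLS_mem_fullC [CharP k ℓ] (h : IsCoreExt N ℓ n u) :
    castLS k u ∈ modularFunctionFieldFullC k N := by
  have h1 := coeffMap_mem_adjoin (ZMod.castHom (dvd_refl ℓ) k) _ _ h.ubar_mem
  rw [coeffMap_castLS] at h1
  refine (IntermediateField.adjoin.mono k _ _ ?_) h1
  rintro _ ⟨_, ⟨d, hd0, hd, rfl⟩, rfl⟩
  rw [coeffMap_qExpand, coeffMap_jqModC]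
  exact ⟨d, hd0, hd, rfl⟩

variable [CharP k ℓ] (hπ : Function.Surjective π) (hn : 0 < n) (h : IsCoreExt N ℓ n u)

include hπ hn h in
/-- the normalisation property for the modular function field -/
theorem gaussNorm : Norm π (laurentBaseChange L (modularFunctionFieldFull N)) :=
  (coreData π hπ hn h).toNorm

theorem pi_evA_mem_fullC (p : A[X]) : pi π (evA (jqModC A) p) ∈ modularFunctionFieldFullC k N := by
  rw [pi_evA, pi_jqModC]
  exact aeval_mem_intermediateField _ (jqModC_mem_full k N) _

include h in
theorem pi_comb_mem_fullC (p : Fin n → A[X]) :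
    pi π (comb (jqModC A) (fun i => castLS A u ^ (i : ℕ)) p) ∈ modularFunctionFieldFullC k N := by
  rw [pi_comb]
  refine sum_mem fun i _ => mul_mem ?_ ?_
  · rw [pi_jqModC]; exact aeval_mem_intermediateField _ (jqModC_mem_full k N) _
  · rw [map_pow, pi_castLS]; exact pow_mem (castLS_mem_fullC h) _

theorem iota_evA_mem (p : A[X]) :
    iota A (evA (jqModC A) p) ∈ laurentBaseChange L (modularFunctionFieldFull N) := by
  rw [iota_evA, iota_jqModC]
  exact aeval_mem_intermediateField _ jqModC_mem_baseChange _

include h in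
theorem iota_comb_mem (p : Fin n → A[X]) :
    iota A (comb (jqModC A) (fun i => castLS A u ^ (i : ℕ)) p) ∈
      laurentBaseChange L (modularFunctionFieldFull N) := by
  rw [iota_comb]
  refine sum_mem fun i _ => mul_mem ?_ ?_
  · rw [iota_jqModC]; exact aeval_mem_intermediateField _ jqModC_mem_baseChange _
  · rw [map_pow, iota_castLS]; exact pow_mem (castLS_mem_baseChange h) _

include hπ hn h in
/-- explicit normal form of the elements of the modular function field -/
theorem exists_normalForm (y : LaurentSeries L)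
    (hy : y ∈ laurentBaseChange L (modularFunctionFieldFull N)) (hy0 : y ≠ 0) :
    ∃ (c : L) (p : A[X]) (p' : Fin n → A[X]), c ≠ 0 ∧ p.map π ≠ 0 ∧ (∃ i, (p' i).map π ≠ 0) ∧
      y * iota A (evA (jqModC A) p) = algebraMap L (LaurentSeries L) c *
        iota A (comb (jqModC A) (fun i => castLS A u ^ (i : ℕ)) p') := by
  have H := coreData π hπ hn h (L := L) (A := A)
  obtain ⟨g, f, hg, hgf⟩ := H.span y hy
  have hf : ∃ i, f i ≠ 0 := by
    by_contra hcon
    push Not at hcon
    have : aeval (iota A (jqModC A)) g * y = 0 := by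
      rw [hgf]; exact Finset.sum_eq_zero fun i _ => by rw [hcon i]; simp
    exact (mul_ne_zero (H.aeval_iota_ne_zero hg) hy0) this
  obtain ⟨c, p, hc, hp, h1⟩ := H.exists_norm_poly hg
  obtain ⟨c', p', hc', hp', h2⟩ := H.exists_norm_comb hf
  refine ⟨c⁻¹ * c', p, p', mul_ne_zero (inv_ne_zero hc) hc', hp, hp', ?_⟩
  rw [h1, h2] at hgf
  have hcL : algebraMap L (LaurentSeries L) c ≠ 0 := by rw [Ne, map_eq_zero]; exact hc
  rw [map_mul, map_inv₀, mul_assoc, ← hgf]
  field_simp


include hπ hn h in
/-- (M2), first half: the reduction of the Gauss ring lands in the Prelude's function field. -/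
theorem gRed_mem_fullC (hN : Norm π (laurentBaseChange L (modularFunctionFieldFull N)))
    (x : gO hN) : gRed hN x ∈ modularFunctionFieldFullC k N := by
  by_cases hx : x = 0
  · rw [hx, map_zero]; exact zero_mem _
  have hx' : ((x : laurentBaseChange L (modularFunctionFieldFull N)) : LaurentSeries L) ≠ 0 :=
    fun h0 => hx (Subtype.ext (Subtype.ext h0))
  obtain ⟨c, p, p', hc, hp, hp', hrel⟩ := exists_normalForm π hπ hn h _ x.1.2 hx'
  have H := coreData π hπ hn h (L := L) (A := A)
  set b := evA (jqModC A) p with hb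
  set a := comb (jqModC A) (fun i => castLS A u ^ (i : ℕ)) p' with ha
  have hb0 : pi π b ≠ 0 := H.pi_evA_ne_zero hp
  have ha0 : pi π a ≠ 0 := H.pi_comb_ne_zero hp'
  by_cases hcA : c ∈ A
  · have h1 : gRed hN x = pi π (cA A ⟨c, hcA⟩ * a) / pi π b :=
      gRed_eq hN x hb0 (by rw [map_mul, iota_cA]; exact hrel)
    rw [h1, map_mul, pi_cA]
    exact div_mem (mul_mem (IntermediateField.algebraMap_mem _ _) (pi_comb_mem_fullC π h p'))
      (pi_evA_mem_fullC π p)
  · exfalso
    have hcA' : c⁻¹ ∈ A := (A.mem_or_inv_mem c).resolve_left hcA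
    have hcL : algebraMap L (LaurentSeries L) c ≠ 0 := by rw [Ne, map_eq_zero]; exact hc
    have hB : (⟨iota A b, iota_evA_mem p⟩ :
        laurentBaseChange L (modularFunctionFieldFull N)) ∈ gO hN := integral_mem_gO hN _
    have hA : (⟨iota A a, iota_comb_mem h p'⟩ :
        laurentBaseChange L (modularFunctionFieldFull N)) ∈ gO hN := integral_mem_gO hN _
    have hC := algebraMap_mem_gO hN (⟨c⁻¹, hcA'⟩ : A)
    have heq : (⟨_, hC⟩ : gO hN) * x * ⟨_, hB⟩ = ⟨_, hA⟩ := by
      apply Subtype.ext
      apply Subtype.ext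
      show algebraMap L (LaurentSeries L) c⁻¹ * _ * iota A b = iota A a
      rw [mul_assoc, hrel, map_inv₀, inv_mul_cancel_left₀ hcL]
    have h2 := congrArg (gRed hN) heq
    rw [map_mul, map_mul, gRed_algebraMap, gRed_integral, gRed_integral,
      residue_eq_zero_of_inv_not_mem hπ hcA' (by rwa [inv_inv]), map_zero, zero_mul,
      zero_mul] at h2
    exact ha0 h2.symm


/-- (M2), second half. -/
theorem fullC_le_gFb (hN : Norm π (laurentBaseChange L (modularFunctionFieldFull N))) :
    modularFunctionFieldFullC k N ≤ gFb hN := by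
  rw [modularFunctionFieldFullC, IntermediateField.adjoin_le_iff]
  rintro _ ⟨d, hd0, hd, rfl⟩
  have hmem : iota A (qExpand A d (jqModC A)) ∈
      laurentBaseChange L (modularFunctionFieldFull N) := by
    rw [iota, coeffMap_qExpand, coeffMap_jqModC]
    exact qExpand_jqModC_mem_baseChange hd
  refine ⟨⟨⟨_, hmem⟩, integral_mem_gO hN hmem⟩, ?_⟩
  rw [gRed_integral, pi, coeffMap_qExpand, coeffMap_jqModC]

include hπ hn h in
/-- (M2): the residue field of the Gauss valuation is the Prelude's function field in
characteristic `ℓ`. -/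
theorem gFb_eq_fullC (hN : Norm π (laurentBaseChange L (modularFunctionFieldFull N))) :
    gFb hN = modularFunctionFieldFullC k N := by
  apply le_antisymm
  · rintro _ ⟨x, rfl⟩
    exact gRed_mem_fullC π hπ hn h hN x
  · exact fullC_le_gFb π hN

/-- (M3): the constant reduction datum (helper24's `RedData`) of the modular function field. -/
def gaussRedData : RedData L (laurentBaseChange L (modularFunctionFieldFull N)) k
    (modularFunctionFieldFullC k N) where
  O := gO (gaussNorm π hπ hn h)
  red := (gRed (gaussNorm π hπ hn h)).codRestrict (modularFunctionFieldFullC k N)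
    (gRed_mem_fullC π hπ hn h _)
  red_surjective := by
    rintro ⟨z, hz⟩
    obtain ⟨x, hx⟩ := fullC_le_gFb π (gaussNorm π hπ hn h) hz
    exact ⟨x, Subtype.ext hx⟩
  isUnit_of_red_ne_zero := by
    intro x hx
    rw [isUnit_iff_gRed_ne_zero]
    intro h0
    exact hx (Subtype.ext h0)
  exists_const := by
    intro a
    obtain ⟨c, rfl⟩ := hπ a
    exact ⟨(c : L), algebraMap_mem_gO _ c, Subtype.ext (gRed_algebraMap _ c)⟩
  red_const := by
    intro c hc
    have hcA : c ∈ A := (algebraMap_mem_gO_iff _ c).mp hc
    exact ⟨π ⟨c, hcA⟩, Subtype.ext (gRed_algebraMap _ (⟨c, hcA⟩ : A))⟩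
  exists_scale := by
    intro f hf
    obtain ⟨c, w, hc, hfw⟩ := exists_const_mul_unit (gaussNorm π hπ hn h) f hf
    have hcF : algebraMap L (laurentBaseChange L (modularFunctionFieldFull N)) c ≠ 0 := by
      rw [Ne, map_eq_zero]; exact hc
    have heq : algebraMap L (laurentBaseChange L (modularFunctionFieldFull N)) c⁻¹ * f =
        ((w : gO (gaussNorm π hπ hn h)) : laurentBaseChange L (modularFunctionFieldFull N)) := by
      rw [hfw, map_inv₀, inv_mul_cancel_left₀ hcF]
    refine ⟨c⁻¹, by rw [heq]; exact Subtype.mem _, ?_⟩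
    intro h0
    have h1 : gRed (gaussNorm π hπ hn h) (w : gO (gaussNorm π hπ hn h)) = 0 := by
      have := congrArg Subtype.val h0
      simp only [heq] at this
      exact this
    exact ((isUnit_iff_gRed_ne_zero _ _).mp w.isUnit) h1

theorem gaussRedData_O : (gaussRedData π hπ hn h).O = gO (gaussNorm π hπ hn h) := rfl

theorem coe_gaussRedData_red (x : gO (gaussNorm π hπ hn h)) :
    (((gaussRedData π hπ hn h).red x : modularFunctionFieldFullC k N) : LaurentSeries k) =
      gRed (gaussNorm π hπ hn h) x := rfl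

end Datum

end Fermat.Agent.RED
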