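import Fermat.Agent.RED.Gauss.ON
import Fermat.Agent.RED.Gauss.Datum

/-!
# (ON) for the Gauss datum `gaussRedData` of the modular function fields
-/

set_option autoImplicit false
noncomputable section
open Polynomial ModularCurve IntermediateField

namespace Fermat.Agent.RED

open Fermat.Agent.S28 Fermat.Agent.RED.Gauss

variable {L : Type*} [Field L] [Algebra ℚ L] {A : ValuationSubring L}
variable {k : Type*} [Field k] (π : A →+* k)
variable {N : ℕ} [NeZero N] {ℓ : ℕ} [Fact ℓ.Prime] {n : ℕ} {u : LaurentSeries ℤ}
variable [CharP k ℓ] (hπ : Function.Surjective π) (hn : 0 < n) (h : IsCoreExt N ℓ n u)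

/-- **(ON)** for `gaussRedData`, in the exact shape of `DeuringHyp.on`. -/
theorem gaussRedData_on (V : Submodule L (laurentBaseChange L (modularFunctionFieldFull N)))
    (hV : FiniteDimensional L V) :
    Module.finrank L V ≤ Module.finrank k ((gaussRedData π hπ hn h).redSub V) :=
  (coreData π hπ hn h).on_of (gaussRedData π hπ hn h) (fun _ hx => hx) (fun _ _ _ => rfl) V hV

end Fermat.Agent.RED
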