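import Fermat.Agent.RED.Gauss.Datum
import Fermat.Prelude.Def_ModularCurve_ReductionModL

/-!
# RED/Gauss: bridge between the Gauss datum and the Prelude's reduction language; the datum for
a valuation ring of `ℚ̄`
-/

set_option autoImplicit false
set_option linter.unusedSectionVars false
noncomputable section
open Polynomial ModularCurve IntermediateField AlgebraicCurve

namespace Fermat.Agent.RED

open Fermat.Agent.S28 Fermat.Agent.RED.Gauss Fermat.Agent.S24

section Bridge

variable {L : Type*} [Field L] [Algebra ℚ L] {A : ValuationSubring L}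
variable {k : Type*} [Field k] (π : A →+* k)
variable {N : ℕ} [NeZero N] {ℓ : ℕ} [Fact ℓ.Prime] {n : ℕ} {u : LaurentSeries ℤ}
variable [CharP k ℓ] (hπ : Function.Surjective π) (hn : 0 < n) (h : IsCoreExt N ℓ n u)

include hπ hn h in
/-- (G3a): the reduction of an integral `q`-series of the function field lies automatically in
the function field in characteristic `ℓ`. -/
theorem coeffMap_mem_fullC_of_integral (y : LaurentSeries A)
    (hy : coeffMap A.subtype y ∈ laurentBaseChange L (modularFunctionFieldFull N)) :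
    coeffMap π y ∈ modularFunctionFieldFullC k N := by
  have hN := gaussNorm π hπ hn h (L := L) (A := A)
  have hy' : iota A y ∈ laurentBaseChange L (modularFunctionFieldFull N) := hy
  have h1 := gRed_mem_fullC π hπ hn h hN ⟨⟨iota A y, hy'⟩, integral_mem_gO hN hy'⟩
  rw [gRed_integral hN hy'] at h1
  exact h1

include hπ hn h in
/-- (G3b): every nonzero element of the function field is a constant times a quotient of two
integral `q`-series of the function field with nonzero reductions. -/
theorem exists_integral_quotient (f : LaurentSeries L)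
    (hf : f ∈ laurentBaseChange L (modularFunctionFieldFull N)) (hf0 : f ≠ 0) :
    ∃ (c : L) (a b : LaurentSeries A), c ≠ 0 ∧
      coeffMap A.subtype a ∈ laurentBaseChange L (modularFunctionFieldFull N) ∧
      coeffMap A.subtype b ∈ laurentBaseChange L (modularFunctionFieldFull N) ∧
      coeffMap π a ≠ 0 ∧ coeffMap π b ≠ 0 ∧
      f * coeffMap A.subtype b = algebraMap L (LaurentSeries L) c * coeffMap A.subtype a := by
  obtain ⟨c, p, p', hc, hp, hp', hrel⟩ := exists_normalForm π hπ hn h f hf hf0
  have H := coreData π hπ hn h (L := L) (A := A)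
  exact ⟨c, _, _, hc, iota_comb_mem h p', iota_evA_mem p, H.pi_comb_ne_zero hp',
    H.pi_evA_ne_zero hp, hrel⟩

include hπ hn h in
/-- (G3c): the Prelude's `PrincipalGeneratedByIntegral`. -/
theorem principalGeneratedByIntegral
    [HasPrincipalDivisors L (laurentBaseChange L (modularFunctionFieldFull N))] :
    PrincipalGeneratedByIntegral A π N := by
  rintro D ⟨f, hf0, hD⟩
  have hf0' : (f : LaurentSeries L) ≠ 0 := fun h0 => hf0 (Subtype.ext h0)
  obtain ⟨c, a, b, hc, ha, hb, ha0, hb0, hrel⟩ :=
    exists_integral_quotient π hπ hn h (f : LaurentSeries L) f.2 hf0'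
  set fa : laurentBaseChange L (modularFunctionFieldFull N) := ⟨coeffMap A.subtype a, ha⟩ with hfa
  set fb : laurentBaseChange L (modularFunctionFieldFull N) := ⟨coeffMap A.subtype b, hb⟩ with hfb
  have hfa0 : fa ≠ 0 := by
    intro h0
    have h1 : coeffMap A.subtype a = 0 := congrArg Subtype.val h0
    have h2 : a = 0 := iota_injective A (by rw [map_zero]; exact h1)
    exact ha0 (by rw [h2, map_zero])
  have hfb0 : fb ≠ 0 := by
    intro h0
    have h1 : coeffMap A.subtype b = 0 := congrArg Subtype.val h0
    have h2 : b = 0 := iota_injective A (by rw [map_zero]; exact h1)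
    exact hb0 (by rw [h2, map_zero])
  obtain ⟨Da, hDa, -⟩ := HasPrincipalDivisors.exists_divisor (K := L) fa hfa0
  obtain ⟨Db, hDb, -⟩ := HasPrincipalDivisors.exists_divisor (K := L) fb hfb0
  have hrelF : f * fb = algebraMap L _ c * fa := Subtype.ext hrel
  have hcF : algebraMap L (laurentBaseChange L (modularFunctionFieldFull N)) c ≠ 0 := by
    rw [Ne, map_eq_zero]; exact hc
  have hDeq : D = Da - Db := by
    ext v
    rw [Finsupp.sub_apply, hD, hDa, hDb]
    have h1 := congrArg v.ord hrelF
    rw [v.ord_mul hf0 hfb0, v.ord_mul hcF hfa0, Place.ord_algebraMap] at h1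
    omega
  rw [hDeq]
  refine AddSubgroup.sub_mem _ (AddSubgroup.subset_closure ?_) (AddSubgroup.subset_closure ?_)
  · exact ⟨a, ha, coeffMap_mem_fullC_of_integral π hπ hn h a ha, ha0, hDa⟩
  · exact ⟨b, hb, coeffMap_mem_fullC_of_integral π hπ hn h b hb, hb0, hDb⟩

/-- (G3d): a place map satisfying (P1) for the Gauss datum is a place reduction in the sense of
the Prelude. -/
theorem isPlaceReductionAlong_of_P1
    (r : Place L (laurentBaseChange L (modularFunctionFieldFull N)) →
      Place k (modularFunctionFieldFullC k N))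
    (hdeg : ∀ P, (r P).deg = P.deg)
    (hP1 : ∀ x : (gaussRedData π hπ hn h).O, (gaussRedData π hπ hn h).red x ≠ 0 →
      ∀ D : Divisor L (laurentBaseChange L (modularFunctionFieldFull N)),
        (∀ v, D v = v.ord (x : laurentBaseChange L (modularFunctionFieldFull N))) →
          ∀ Q, (D.mapDomain r) Q = Q.ord ((gaussRedData π hπ hn h).red x)) :
    IsPlaceReductionAlong A π N r := by
  refine ⟨hdeg, ?_⟩
  intro y hy hyk hne D hD Q
  have hN := gaussNorm π hπ hn h (L := L) (A := A)
  have hy' : iota A y ∈ laurentBaseChange L (modularFunctionFieldFull N) := hy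
  set x : (gaussRedData π hπ hn h).O := ⟨⟨iota A y, hy'⟩, integral_mem_gO hN hy'⟩ with hx
  have hred : (gaussRedData π hπ hn h).red x = ⟨coeffMap π y, hyk⟩ :=
    Subtype.ext (gRed_integral hN hy')
  have := hP1 x (by rw [hred]; exact fun h0 => hne (congrArg Subtype.val h0)) D hD Q
  rw [hred] at this
  exact this

theorem reductionInputsAlong_of_P1
    [HasPrincipalDivisors L (laurentBaseChange L (modularFunctionFieldFull N))]
    (r : Place L (laurentBaseChange L (modularFunctionFieldFull N)) →
      Place k (modularFunctionFieldFullC k N))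
    (hdeg : ∀ P, (r P).deg = P.deg)
    (hP1 : ∀ x : (gaussRedData π hπ hn h).O, (gaussRedData π hπ hn h).red x ≠ 0 →
      ∀ D : Divisor L (laurentBaseChange L (modularFunctionFieldFull N)),
        (∀ v, D v = v.ord (x : laurentBaseChange L (modularFunctionFieldFull N))) →
          ∀ Q, (D.mapDomain r) Q = Q.ord ((gaussRedData π hπ hn h).red x)) :
    ReductionInputsAlong A π N :=
  ⟨r, isPlaceReductionAlong_of_P1 π hπ hn h r hdeg hP1, principalGeneratedByIntegral π hπ hn h⟩

end Bridge

section Bar

set_option synthInstance.maxHeartbeats 400000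

variable (A : ValuationSubring (AlgebraicClosure ℚ)) (N : ℕ) [NeZero N] {ℓ : ℕ} [Fact ℓ.Prime]

theorem charP_residueField (hA : A.LiesOverPrime ℓ) : CharP (IsLocalRing.ResidueField A) ℓ := by
  rw [CharP.charP_iff_prime_eq_zero (Fact.out : ℓ.Prime)]
  have h1 : ((ℓ : A) : AlgebraicClosure ℚ) ∈ A.nonunits := by
    have : ((ℓ : A) : AlgebraicClosure ℚ) = (ℓ : AlgebraicClosure ℚ) := by simp
    rw [this]; exact hA
  have h2 : (ℓ : A) ∈ IsLocalRing.maximalIdeal A := by
    rw [← ValuationSubring.coe_mem_nonunits_iff] 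
    exact h1
  have h3 : IsLocalRing.residue A (ℓ : A) = 0 := (IsLocalRing.residue_eq_zero_iff _).mpr h2
  rwa [map_natCast] at h3

theorem card_Q_pos : 0 < Fintype.card (Q N) := Fintype.card_pos_iff.mpr ⟨Q.base N⟩

/-- the normalisation property for `F_N` over `ℚ̄`. -/
theorem gaussNormBar (hA : A.LiesOverPrime ℓ) (hℓN : ¬ ℓ ∣ N) :
    Norm (IsLocalRing.residue A) (modularFunctionFieldBar N) :=
  haveI := charP_residueField A hA
  gaussNorm (IsLocalRing.residue A) IsLocalRing.residue_surjective (card_Q_pos N)
    (exists_isCoreExt N ℓ hℓN).choose_spec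

/-- **The Gauss datum** of `F_N = ℚ̄(j(q^d) : d ∣ N)` at a valuation ring of `ℚ̄` over `ℓ ∤ N`. -/
def gaussData (hA : A.LiesOverPrime ℓ) (hℓN : ¬ ℓ ∣ N) :
    RedData (AlgebraicClosure ℚ) (modularFunctionFieldBar N) (IsLocalRing.ResidueField A)
      (modularFunctionFieldFullC (IsLocalRing.ResidueField A) N) :=
  haveI := charP_residueField A hA
  gaussRedData (IsLocalRing.residue A) IsLocalRing.residue_surjective (card_Q_pos N)
    (exists_isCoreExt N ℓ hℓN).choose_spec

theorem gaussData_O (hA : A.LiesOverPrime ℓ) (hℓN : ¬ ℓ ∣ N) :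
    (gaussData A N hA hℓN).O = gO (gaussNormBar A N hA hℓN) := rfl

theorem mem_gaussData_O (hA : A.LiesOverPrime ℓ) (hℓN : ¬ ℓ ∣ N) (x : modularFunctionFieldBar N) :
    x ∈ (gaussData A N hA hℓN).O ↔
      (x : LaurentSeries (AlgebraicClosure ℚ)) ∈ bigO (IsLocalRing.residue A) := Iff.rfl

theorem coe_gaussData_red (hA : A.LiesOverPrime ℓ) (hℓN : ¬ ℓ ∣ N)
    (x : gO (gaussNormBar A N hA hℓN)) :
    (((gaussData A N hA hℓN).red x : modularFunctionFieldFullC (IsLocalRing.ResidueField A) N) :
      LaurentSeries (IsLocalRing.ResidueField A)) = gRed (gaussNormBar A N hA hℓN) x :=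
  rfl

end Bar

end Fermat.Agent.RED
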