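import Fermat.Agent.RED.Gauss.Field
import Fermat.Prelude.Thm_ModularCurve_coeffMap_qExpand

/-!
# Functoriality of the Gauss datum

A *compatible triple* of ring homomorphisms `Φ_L : L₁((q)) → L₂((q))`, `Φ_A : A₁((q)) → A₂((q))`,
`Φ_k : k₁((q)) → k₂((q))` maps the big Gauss ring to the big Gauss ring and commutes with the
reduction maps.  Instances: coefficientwise (semilinear) maps, the substitution `q ↦ q^c`, the
identity (change of level).
-/

set_option autoImplicit false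
noncomputable section

open ModularCurve Polynomial

namespace Fermat.Agent.RED.Gauss

variable {L₁ : Type*} [Field L₁] {A₁ : ValuationSubring L₁} {k₁ : Type*} [Field k₁]
variable {L₂ : Type*} [Field L₂] {A₂ : ValuationSubring L₂} {k₂ : Type*} [Field k₂]

/-- a compatible triple of ring homomorphisms -/
structure Compat (π₁ : A₁ →+* k₁) (π₂ : A₂ →+* k₂)
    (ΦL : LaurentSeries L₁ →+* LaurentSeries L₂) (ΦA : LaurentSeries A₁ →+* LaurentSeries A₂)
    (Φk : LaurentSeries k₁ →+* LaurentSeries k₂) : Prop where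
  map_iota : ∀ a, ΦL (iota A₁ a) = iota A₂ (ΦA a)
  map_pi : ∀ a, Φk (pi π₁ a) = pi π₂ (ΦA a)

namespace Compat

variable {π₁ : A₁ →+* k₁} {π₂ : A₂ →+* k₂}
  {ΦL : LaurentSeries L₁ →+* LaurentSeries L₂} {ΦA : LaurentSeries A₁ →+* LaurentSeries A₂}
  {Φk : LaurentSeries k₁ →+* LaurentSeries k₂}

theorem pi_ne_zero (h : Compat π₁ π₂ ΦL ΦA Φk) {b : LaurentSeries A₁} (hb : pi π₁ b ≠ 0) :
    pi π₂ (ΦA b) ≠ 0 := by
  rw [← h.map_pi]
  exact (map_ne_zero Φk).mpr hb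

theorem rel (h : Compat π₁ π₂ ΦL ΦA Φk) {y : LaurentSeries L₁} {a b : LaurentSeries A₁}
    (hy : y * iota A₁ b = iota A₁ a) :
    ΦL y * iota A₂ (ΦA b) = iota A₂ (ΦA a) := by
  rw [← h.map_iota, ← h.map_iota, ← map_mul, hy]

theorem mem_bigO (h : Compat π₁ π₂ ΦL ΦA Φk) {y : LaurentSeries L₁} (hy : y ∈ bigO π₁) :
    ΦL y ∈ bigO π₂ := by
  obtain ⟨a, b, hb, hab⟩ := hy
  exact ⟨ΦA a, ΦA b, h.pi_ne_zero hb, h.rel hab⟩

theorem bigRed_map (h : Compat π₁ π₂ ΦL ΦA Φk) (y : bigO π₁) :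
    bigRed π₂ ⟨ΦL y, h.mem_bigO y.2⟩ = Φk (bigRed π₁ y) := by
  obtain ⟨y, a, b, hb, hab⟩ := y
  rw [bigRed_eq π₁ ⟨y, a, b, hb, hab⟩ hb hab,
    bigRed_eq π₂ ⟨ΦL y, _⟩ (h.pi_ne_zero hb) (h.rel hab), map_div₀, h.map_pi, h.map_pi]

variable {F₁ : IntermediateField L₁ (LaurentSeries L₁)}
  {F₂ : IntermediateField L₂ (LaurentSeries L₂)}

theorem mem_gO (h : Compat π₁ π₂ ΦL ΦA Φk) (hN₁ : Norm π₁ F₁) (hN₂ : Norm π₂ F₂) (x : gO hN₁)
    (hx : ΦL ((x : F₁) : LaurentSeries L₁) ∈ F₂) : (⟨_, hx⟩ : F₂) ∈ gO hN₂ :=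
  h.mem_bigO x.2

theorem gRed_map (h : Compat π₁ π₂ ΦL ΦA Φk) (hN₁ : Norm π₁ F₁) (hN₂ : Norm π₂ F₂) (x : gO hN₁)
    (hx : ΦL ((x : F₁) : LaurentSeries L₁) ∈ F₂) :
    gRed hN₂ ⟨⟨_, hx⟩, h.mem_gO hN₁ hN₂ x hx⟩ = Φk (gRed hN₁ x) :=
  h.bigRed_map ⟨_, x.2⟩

/-- if `Φ_L` maps constants to constants then it *reflects* membership in the Gauss ring -/
theorem mem_gO_iff (h : Compat π₁ π₂ ΦL ΦA Φk) (hN₁ : Norm π₁ F₁) (hN₂ : Norm π₂ F₂) (x : F₁)
    (hx : ΦL (x : LaurentSeries L₁) ∈ F₂) : (⟨_, hx⟩ : F₂) ∈ gO hN₂ ↔ x ∈ gO hN₁ := by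
  refine ⟨fun hmem => ?_, fun hmem => h.mem_gO hN₁ hN₂ ⟨x, hmem⟩ hx⟩
  by_contra hnot
  have hx0 : x ≠ 0 := by rintro rfl; exact hnot (gO hN₁).zero_mem
  have hinv : x⁻¹ ∈ gO hN₁ := ((gO hN₁).mem_or_inv_mem x).resolve_left hnot
  -- `x⁻¹` is a non-unit of `gO hN₁`, so it reduces to zero
  have hred : gRed hN₁ ⟨x⁻¹, hinv⟩ = 0 := by
    by_contra hne
    obtain ⟨u, hu⟩ := (isUnit_iff_gRed_ne_zero hN₁ _).mpr hne
    apply hnot
    have h1 : ((u : gO hN₁) : F₁) * (((u⁻¹ : (gO hN₁)ˣ) : gO hN₁) : F₁) = 1 :=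
      congrArg Subtype.val (Units.mul_inv u)
    rw [hu] at h1
    have h2 : (((u⁻¹ : (gO hN₁)ˣ) : gO hN₁) : F₁) = x := by
      have h3 : x⁻¹ * (((u⁻¹ : (gO hN₁)ˣ) : gO hN₁) : F₁) = 1 := h1
      field_simp at h3
      exact h3
    rw [← h2]; exact Subtype.mem _
  have hxi : ΦL (((⟨x⁻¹, hinv⟩ : gO hN₁) : F₁) : LaurentSeries L₁) ∈ F₂ := by
    show ΦL ((x⁻¹ : F₁) : LaurentSeries L₁) ∈ F₂
    rw [IntermediateField.coe_inv, map_inv₀]
    exact F₂.inv_mem hx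
  have hred2 := h.gRed_map hN₁ hN₂ ⟨x⁻¹, hinv⟩ hxi
  rw [hred, map_zero] at hred2
  have hmul : (⟨⟨_, hx⟩, hmem⟩ : gO hN₂) * ⟨⟨_, hxi⟩, h.mem_gO hN₁ hN₂ ⟨x⁻¹, hinv⟩ hxi⟩ = 1 := by
    apply Subtype.ext
    apply Subtype.ext
    show ΦL (x : LaurentSeries L₁) * ΦL ((x⁻¹ : F₁) : LaurentSeries L₁) = 1
    rw [← map_mul, ← IntermediateField.coe_mul, mul_inv_cancel₀ hx0, IntermediateField.coe_one,
      map_one]
  have := congrArg (gRed hN₂) hmul
  rw [map_mul, hred2, mul_zero, map_one] at this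
  exact zero_ne_one this

end Compat

/-! ### Instances -/

section Instances

variable {L : Type*} [Field L] {A : ValuationSubring L} {k : Type*} [Field k] (π : A →+* k)

/-- the identity triple (change of level) -/
theorem compat_id : Compat π π (RingHom.id _) (RingHom.id _) (RingHom.id _) :=
  ⟨fun _ => rfl, fun _ => rfl⟩

/-- the substitution `q ↦ q^c` -/
theorem compat_qExpand (c : ℕ) [NeZero c] : Compat π π (qExpand L c) (qExpand A c) (qExpand k c) :=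
  ⟨fun a => (coeffMap_qExpand A.subtype c a).symm, fun a => (coeffMap_qExpand π c a).symm⟩

end Instances

/-- coefficientwise maps -/
theorem compat_coeffMap {π₁ : A₁ →+* k₁} {π₂ : A₂ →+* k₂} (σ : L₁ →+* L₂) (σA : A₁ →+* A₂)
    (σk : k₁ →+* k₂) (hA : ∀ a : A₁, ((σA a : A₂) : L₂) = σ (a : L₁))
    (hk : ∀ a : A₁, σk (π₁ a) = π₂ (σA a)) :
    Compat π₁ π₂ (coeffMap σ) (coeffMap σA) (coeffMap σk) := by
  constructor
  · intro a
    ext n
    simp only [iota, coeffMap_coeff]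
    exact (hA _).symm
  · intro a
    ext n
    simp only [pi, coeffMap_coeff]
    exact hk _

/-! ### Change of level -/

section Level

variable {L : Type*} [Field L] {A : ValuationSubring L} {k : Type*} [Field k] {π : A →+* k}
variable {F F' : IntermediateField L (LaurentSeries L)}

theorem inclusion_mem_gO_iff (hN : Norm π F) (hN' : Norm π F') (hFF' : F ≤ F') (x : F) :
    IntermediateField.inclusion hFF' x ∈ gO hN' ↔ x ∈ gO hN := Iff.rfl

theorem gRed_inclusion (hN : Norm π F) (hN' : Norm π F') (hFF' : F ≤ F') (x : gO hN) :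
    gRed hN' ⟨IntermediateField.inclusion hFF' x, x.2⟩ = gRed hN x := rfl

theorem gFb_mono (hN : Norm π F) (hN' : Norm π F') (hFF' : F ≤ F') : gFb hN ≤ gFb hN' := by
  rintro _ ⟨x, rfl⟩
  exact ⟨⟨IntermediateField.inclusion hFF' x, x.2⟩, rfl⟩

end Level

/-! ### The decomposition group -/

section Decomposition

variable {K L : Type*} [Field K] [Field L] [Algebra K L] (A : ValuationSubring L)

/-- the triple attached to an element of the decomposition group of `A`, for the residue map -/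
theorem compat_decomposition (g : A.decompositionSubgroup K) :
    Compat (IsLocalRing.residue A) (IsLocalRing.residue A)
      (coeffMap ((g : L ≃ₐ[K] L) : L →+* L))
      (coeffMap (MulSemiringAction.toRingHom (A.decompositionSubgroup K) A g))
      (coeffMap (MulSemiringAction.toRingHom (A.decompositionSubgroup K)
        (IsLocalRing.ResidueField A) g)) :=
  compat_coeffMap _ _ _ (fun _ => rfl) (fun _ => rfl)

end Decomposition

end Fermat.Agent.RED.Gauss
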