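import Fermat.Agent.RED.Gauss.Compat
import Fermat.Prelude.Def_EllipticCurve_FrobeniusTrace
import Fermat.Prelude.Def_FLTPrelim_Ramification

/-!
# The decomposition group acts on the Gauss datum (inertia acts trivially, Frobenius by `x ↦ x^q`)
-/

set_option autoImplicit false
noncomputable section

open ModularCurve Polynomial

namespace Fermat.Agent.RED.Gauss

variable {K L : Type*} [Field K] [Field L] [Algebra K L] {A : ValuationSubring L}
variable {F : IntermediateField L (LaurentSeries L)}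

/-- the action of the decomposition group on the residue field, as a ring hom -/
abbrev resHom (A : ValuationSubring L) (g : A.decompositionSubgroup K) :
    IsLocalRing.ResidueField A →+* IsLocalRing.ResidueField A :=
  MulSemiringAction.toRingHom (A.decompositionSubgroup K) (IsLocalRing.ResidueField A) g

theorem mem_gO_of_mem_decomposition (hN : Norm (IsLocalRing.residue A) F)
    (g : A.decompositionSubgroup K) (x : gO hN)
    (hx : coeffMap ((g : L ≃ₐ[K] L) : L →+* L) ((x : F) : LaurentSeries L) ∈ F) :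
    (⟨_, hx⟩ : F) ∈ gO hN :=
  (compat_decomposition A g).mem_gO hN hN x hx

theorem gRed_decomposition (hN : Norm (IsLocalRing.residue A) F)
    (g : A.decompositionSubgroup K) (x : gO hN)
    (hx : coeffMap ((g : L ≃ₐ[K] L) : L →+* L) ((x : F) : LaurentSeries L) ∈ F) :
    gRed hN ⟨⟨_, hx⟩, mem_gO_of_mem_decomposition hN g x hx⟩ =
      coeffMap (resHom A g) (gRed hN x) :=
  (compat_decomposition A g).gRed_map hN hN x hx

/-- inertia acts trivially on reductions -/
theorem gRed_of_mem_inertia (hN : Norm (IsLocalRing.residue A) F) (σ : L ≃ₐ[K] L)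
    (hσ : σ ∈ A.inertiaSubgroupIn K) (x : gO hN)
    (hx : coeffMap (σ : L →+* L) ((x : F) : LaurentSeries L) ∈ F) :
    ∃ hmem : (⟨_, hx⟩ : F) ∈ gO hN, gRed hN ⟨⟨_, hx⟩, hmem⟩ = gRed hN x := by
  obtain ⟨g, hg, rfl⟩ := hσ
  refine ⟨mem_gO_of_mem_decomposition hN g x hx, ?_⟩
  have h1 := gRed_decomposition hN g x hx
  have h2 : resHom A g = RingHom.id _ := by
    ext1 z
    have := congrArg (fun e : RingAut (IsLocalRing.ResidueField A) => e z)
      (MonoidHom.mem_ker.mp hg)
    exact this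
  rw [h2, coeffMap_id] at h1
  exact h1

/-- a Frobenius element acts on reductions by `x ↦ x^q` on the coefficients -/
theorem gRed_of_isFrobeniusAt (hN : Norm (IsLocalRing.residue A) F) (σ : L ≃ₐ[K] L) {q : ℕ}
    (hσ : A.IsFrobeniusAt σ q) (x : gO hN)
    (hx : coeffMap (σ : L →+* L) ((x : F) : LaurentSeries L) ∈ F) :
    ∃ hmem : (⟨_, hx⟩ : F) ∈ gO hN, ∀ n : ℤ,
      (gRed hN ⟨⟨_, hx⟩, hmem⟩).coeff n = ((gRed hN x).coeff n) ^ q := by
  obtain ⟨hd, hq⟩ := hσ
  refine ⟨mem_gO_of_mem_decomposition hN ⟨σ, hd⟩ x hx, fun n => ?_⟩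
  have h1 := gRed_decomposition hN ⟨σ, hd⟩ x hx
  have h2 := congrArg (fun z => z.coeff n) h1
  simp only [coeffMap_coeff] at h2
  exact h2.trans (hq _)

/-- a Frobenius element acts on reductions through any ring hom `τ` with `τ z = z^q` -/
theorem gRed_of_isFrobeniusAt' (hN : Norm (IsLocalRing.residue A) F) (σ : L ≃ₐ[K] L) {q : ℕ}
    (hσ : A.IsFrobeniusAt σ q) (τ : IsLocalRing.ResidueField A →+* IsLocalRing.ResidueField A)
    (hτ : ∀ z, τ z = z ^ q) (x : gO hN)
    (hx : coeffMap (σ : L →+* L) ((x : F) : LaurentSeries L) ∈ F) :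
    ∃ hmem : (⟨_, hx⟩ : F) ∈ gO hN, gRed hN ⟨⟨_, hx⟩, hmem⟩ = coeffMap τ (gRed hN x) := by
  obtain ⟨hmem, h⟩ := gRed_of_isFrobeniusAt hN σ hσ x hx
  refine ⟨hmem, ?_⟩
  ext n
  rw [h n, coeffMap_coeff, hτ]

end Fermat.Agent.RED.Gauss
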