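import Fermat.Agent.RED.Gauss.Field
import Fermat.Agent.RED.Deuring.Basic
import Fermat.Agent.RED.TorsionInj

/-!
# Adapters: the Gauss datum as a `RedData` (Deuring) and the `IsReduction` fields (TorsionInj)
-/

set_option autoImplicit false
noncomputable section

open ModularCurve Polynomial

namespace Fermat.Agent.RED.Gauss

variable {L : Type*} [Field L] {A : ValuationSubring L}
variable {k : Type*} [Field k] {π : A →+* k}
variable {F : IntermediateField L (LaurentSeries L)}

/-- the reduction map with values in a prescribed intermediate field `Fb = gFb hN` -/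
def gRedTo (hN : Norm π F) (Fb : IntermediateField k (LaurentSeries k)) (h : gFb hN = Fb) :
    gO hN →+* Fb where
  toFun x := ⟨gRed hN x, h ▸ (⟨x, rfl⟩ : gRed hN x ∈ gFb hN)⟩
  map_one' := Subtype.ext (map_one _)
  map_mul' _ _ := Subtype.ext (map_mul _ _ _)
  map_zero' := Subtype.ext (map_zero _)
  map_add' _ _ := Subtype.ext (map_add _ _ _)

@[simp] theorem coe_gRedTo (hN : Norm π F) (Fb : IntermediateField k (LaurentSeries k))
    (h : gFb hN = Fb) (x : gO hN) :
    ((gRedTo hN Fb h x : Fb) : LaurentSeries k) = gRed hN x := rfl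

theorem gRedTo_surjective (hN : Norm π F) (Fb : IntermediateField k (LaurentSeries k))
    (h : gFb hN = Fb) : Function.Surjective (gRedTo hN Fb h) := by
  subst h
  rintro ⟨_, x, rfl⟩
  exact ⟨x, rfl⟩

theorem gRedTo_eq_zero_iff (hN : Norm π F) (Fb : IntermediateField k (LaurentSeries k))
    (h : gFb hN = Fb) (x : gO hN) : gRedTo hN Fb h x = 0 ↔ gRed hN x = 0 :=
  ⟨fun h0 => congrArg Subtype.val h0, fun h0 => Subtype.ext h0⟩

theorem gRedTo_algebraMap (hN : Norm π F) (Fb : IntermediateField k (LaurentSeries k))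
    (h : gFb hN = Fb) (c : A) :
    gRedTo hN Fb h ⟨algebraMap L F (c : L), algebraMap_mem_gO hN c⟩ = algebraMap k Fb (π c) :=
  Subtype.ext (gRed_algebraMap hN c)

/-- The Gauss datum as a `RedData` (helper24's structure). -/
def Norm.redData (hN : Norm π F) (Fb : IntermediateField k (LaurentSeries k))
    (h : gFb hN = Fb) : RedData L F k Fb where
  O := gO hN
  red := gRedTo hN Fb h
  red_surjective := gRedTo_surjective hN Fb h
  isUnit_of_red_ne_zero := by
    intro x hx
    rw [isUnit_iff_gRed_ne_zero]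
    exact fun h0 => hx ((gRedTo_eq_zero_iff hN Fb h x).mpr h0)
  exists_const := by
    intro a
    obtain ⟨c, rfl⟩ := hN.surj a
    exact ⟨(c : L), algebraMap_mem_gO hN c, gRedTo_algebraMap hN Fb h c⟩
  red_const := by
    intro c hc
    have hcA : c ∈ A := (algebraMap_mem_gO_iff hN c).mp hc
    exact ⟨π ⟨c, hcA⟩, gRedTo_algebraMap hN Fb h ⟨c, hcA⟩⟩
  exists_scale := by
    intro f hf
    obtain ⟨c, u, hc, hfu⟩ := exists_const_mul_unit hN f hf
    have hcF : algebraMap L F c ≠ 0 := by rw [Ne, map_eq_zero]; exact hc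
    have he : algebraMap L F c⁻¹ * f = ((u : gO hN) : F) := by
      rw [hfu, map_inv₀, inv_mul_cancel_left₀ hcF]
    refine ⟨c⁻¹, by rw [he]; exact Subtype.mem _, ?_⟩
    intro h0
    have h1 : (⟨algebraMap L F c⁻¹ * f, by rw [he]; exact Subtype.mem _⟩ : gO hN) = (u : gO hN) :=
      Subtype.ext he
    rw [h1, gRedTo_eq_zero_iff] at h0
    exact ((isUnit_iff_gRed_ne_zero hN _).mp u.isUnit) h0

@[simp] theorem Norm.redData_O (hN : Norm π F) (Fb : IntermediateField k (LaurentSeries k))
    (h : gFb hN = Fb) : (hN.redData Fb h).O = gO hN := rfl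

@[simp] theorem Norm.redData_red (hN : Norm π F) (Fb : IntermediateField k (LaurentSeries k))
    (h : gFb hN = Fb) : (hN.redData Fb h).red = gRedTo hN Fb h := rfl

/-! ### the three valuation-theoretic fields of `IsReduction` -/

theorem gRedTo_ker (hN : Norm π F) (Fb : IntermediateField k (LaurentSeries k))
    (h : gFb hN = Fb) (x : gO hN) :
    gRedTo hN Fb h x = 0 ↔ (gO hN).valuation (x : F) < 1 := by
  rw [gRedTo_eq_zero_iff, gRed_eq_zero_iff, ValuationSubring.valuation_lt_one_iff]

theorem gRedTo_const (hN : Norm π F) (Fb : IntermediateField k (LaurentSeries k))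
    (h : gFb hN = Fb) (c : L) (hc : algebraMap L F c ∈ gO hN) :
    gRedTo hN Fb h ⟨_, hc⟩ ∈ Set.range (algebraMap k Fb) := by
  have hcA : c ∈ A := (algebraMap_mem_gO_iff hN c).mp hc
  exact ⟨π ⟨c, hcA⟩, (gRedTo_algebraMap hN Fb h ⟨c, hcA⟩).symm⟩

theorem gO_scale (hN : Norm π F) (f : F) (hf : f ≠ 0) :
    ∃ c : L, (gO hN).valuation f = (gO hN).valuation (algebraMap L F c) := by
  obtain ⟨c, u, _, hfu⟩ := exists_const_mul_unit hN f hf
  refine ⟨c, ?_⟩
  rw [hfu, map_mul, (ValuationSubring.valuation_eq_one_iff (gO hN) _).mp u.isUnit, mul_one]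

/-- valuation `1` ↔ nonzero reduction -/
theorem valuation_eq_one_iff_gRed_ne_zero (hN : Norm π F) (x : gO hN) :
    (gO hN).valuation (x : F) = 1 ↔ gRed hN x ≠ 0 := by
  rw [← ValuationSubring.valuation_eq_one_iff, isUnit_iff_gRed_ne_zero]

/-- `IsReduction` from the Gauss datum: only the place-theoretic fields remain. -/
theorem isReduction_of (hN : Norm π F) (Fb : IntermediateField k (LaurentSeries k))
    (h : gFb hN = Fb) (r : AlgebraicCurve.Place L F → AlgebraicCurve.Place k Fb)
    (div_red : ∀ x : gO hN, (gO hN).valuation (x : F) = 1 → ∀ D : AlgebraicCurve.Divisor L F,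
      (∀ P, D P = P.ord (x : F)) → ∀ Q, D.mapDomain r Q = Q.ord (gRedTo hN Fb h x))
    (exists_div : ∀ f : F, f ≠ 0 → ∃ D : AlgebraicCurve.Divisor L F, ∀ P, D P = P.ord f)
    (exists_value : ∀ (P : AlgebraicCurve.Place L F) (f : F), f ∈ P.toValuationSubring →
      ∃ c : L, f = algebraMap L F c ∨ 0 < P.ord (f - algebraMap L F c)) :
    IsReduction (gO hN) (gRedTo hN Fb h) r where
  ker := gRedTo_ker hN Fb h
  const := gRedTo_const hN Fb h
  scale := gO_scale hN
  div_red := div_red
  exists_div := exists_div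
  exists_value := exists_value

end Fermat.Agent.RED.Gauss
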