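import Mathlib
import Fermat.Prelude.Def_ModularCurve_LaurentCoeff

set_option autoImplicit false
noncomputable section

open ModularCurve Polynomial

namespace Fermat.Agent.RED.Gauss

variable {L : Type*} [Field L] (A : ValuationSubring L)

/-- inclusion `A((q)) → L((q))` -/
def iota : LaurentSeries A →+* LaurentSeries L := coeffMap A.subtype

variable {A}
variable {k : Type*} [Field k] (π : A →+* k)

/-- reduction `A((q)) → k((q))` -/
def pi : LaurentSeries A →+* LaurentSeries k := coeffMap π

variable (A) in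
theorem iota_injective : Function.Injective (iota A) := by
  intro x y h
  ext n
  have := congrArg (fun z => z.coeff n) h
  simpa [iota] using this

/-- the big Gauss ring inside `L((q))` -/
def bigO : Subring (LaurentSeries L) where
  carrier := {y | ∃ a b : LaurentSeries A, pi π b ≠ 0 ∧ y * iota A b = iota A a}
  mul_mem' := by
    rintro x y ⟨a, b, hb, h⟩ ⟨a', b', hb', h'⟩
    refine ⟨a * a', b * b', ?_, ?_⟩
    · rw [map_mul]; exact mul_ne_zero hb hb'
    · rw [map_mul, map_mul, ← h, ← h']; ring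
  one_mem' := ⟨1, 1, by simp, by simp⟩
  add_mem' := by
    rintro x y ⟨a, b, hb, h⟩ ⟨a', b', hb', h'⟩
    refine ⟨a * b' + a' * b, b * b', ?_, ?_⟩
    · rw [map_mul]; exact mul_ne_zero hb hb'
    · rw [map_mul, map_add, map_mul, map_mul, ← h, ← h']; ring
  zero_mem' := ⟨0, 1, by simp, by simp⟩
  neg_mem' := by
    rintro x ⟨a, b, hb, h⟩
    exact ⟨-a, b, hb, by rw [map_neg, ← h]; ring⟩

theorem mem_bigO {y : LaurentSeries L} :
    y ∈ bigO π ↔ ∃ a b : LaurentSeries A, pi π b ≠ 0 ∧ y * iota A b = iota A a := Iff.rfl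

theorem iota_ne_zero_of_pi_ne_zero {b : LaurentSeries A} (hb : pi π b ≠ 0) : iota A b ≠ 0 := by
  intro h
  have : b = 0 := iota_injective A (by rw [h, map_zero])
  exact hb (by rw [this, map_zero])

theorem red_wd {y : LaurentSeries L} {a b a' b' : LaurentSeries A} (hb : pi π b ≠ 0)
    (hb' : pi π b' ≠ 0) (h : y * iota A b = iota A a) (h' : y * iota A b' = iota A a') :
    pi π a / pi π b = pi π a' / pi π b' := by
  have e : a * b' = a' * b := by
    apply iota_injective A
    rw [map_mul, map_mul, ← h, ← h']; ring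
  rw [div_eq_div_iff hb hb', ← map_mul, ← map_mul, e]

/-- reduction on the big Gauss ring, as a function -/
def bigRedFun (y : bigO π) : LaurentSeries k :=
  pi π y.2.choose / pi π y.2.choose_spec.choose

theorem bigRedFun_eq (y : bigO π) {a b : LaurentSeries A} (hb : pi π b ≠ 0)
    (h : (y : LaurentSeries L) * iota A b = iota A a) : bigRedFun π y = pi π a / pi π b :=
  red_wd π y.2.choose_spec.choose_spec.1 hb y.2.choose_spec.choose_spec.2 h

/-- reduction on the big Gauss ring -/
def bigRed : bigO π →+* LaurentSeries k where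
  toFun := bigRedFun π
  map_one' := by
    rw [bigRedFun_eq π 1 (a := 1) (b := 1) (by simp) (by simp)]; simp
  map_zero' := by
    rw [bigRedFun_eq π 0 (a := 0) (b := 1) (by simp) (by simp)]; simp
  map_mul' := by
    rintro ⟨x, a, b, hb, h⟩ ⟨y, a', b', hb', h'⟩
    rw [bigRedFun_eq π ⟨x, a, b, hb, h⟩ hb h, bigRedFun_eq π ⟨y, a', b', hb', h'⟩ hb' h',
      bigRedFun_eq π (⟨x, a, b, hb, h⟩ * ⟨y, a', b', hb', h'⟩) (a := a * a') (b := b * b')
        (by rw [map_mul]; exact mul_ne_zero hb hb')
        (by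
          show x * y * _ = _
          rw [map_mul, map_mul, ← h, ← h']; ring)]
    rw [map_mul, map_mul, div_mul_div_comm]
  map_add' := by
    rintro ⟨x, a, b, hb, h⟩ ⟨y, a', b', hb', h'⟩
    rw [bigRedFun_eq π ⟨x, a, b, hb, h⟩ hb h, bigRedFun_eq π ⟨y, a', b', hb', h'⟩ hb' h',
      bigRedFun_eq π (⟨x, a, b, hb, h⟩ + ⟨y, a', b', hb', h'⟩) (a := a * b' + a' * b) (b := b * b')
        (by rw [map_mul]; exact mul_ne_zero hb hb')
        (by
          show (x + y) * _ = _
          rw [map_mul, map_add, map_mul, map_mul, ← h, ← h']; ring)]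
    rw [map_mul, map_add, map_mul, map_mul, div_add_div _ _ hb hb', mul_comm (pi π b) (pi π a')]

theorem bigRed_eq (y : bigO π) {a b : LaurentSeries A} (hb : pi π b ≠ 0)
    (h : (y : LaurentSeries L) * iota A b = iota A a) : bigRed π y = pi π a / pi π b :=
  bigRedFun_eq π y hb h

theorem iota_mem_bigO (a : LaurentSeries A) : iota A a ∈ bigO π :=
  ⟨a, 1, by simp, by simp⟩

theorem bigRed_iota (a : LaurentSeries A) : bigRed π ⟨iota A a, iota_mem_bigO π a⟩ = pi π a := by
  rw [bigRed_eq π _ (a := a) (b := 1) (by simp) (by simp)]; simp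

theorem div_mem_bigO (a : LaurentSeries A) {b : LaurentSeries A} (hb : pi π b ≠ 0) :
    iota A a / iota A b ∈ bigO π :=
  ⟨a, b, hb, div_mul_cancel₀ _ (iota_ne_zero_of_pi_ne_zero π hb)⟩

theorem bigRed_div (a : LaurentSeries A) {b : LaurentSeries A} (hb : pi π b ≠ 0) :
    bigRed π ⟨iota A a / iota A b, div_mem_bigO π a hb⟩ = pi π a / pi π b :=
  bigRed_eq π _ hb (div_mul_cancel₀ _ (iota_ne_zero_of_pi_ne_zero π hb))

end Fermat.Agent.RED.Gauss
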