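import Fermat.Agent.RED.Gauss.Field

set_option autoImplicit false
noncomputable section

open ModularCurve Polynomial

namespace Fermat.Agent.RED.Gauss

variable {L : Type*} [Field L] {A : ValuationSubring L}
variable {k : Type*} [Field k] (π : A →+* k)

/-- evaluation of a polynomial over `A` at an integral series -/
def evA (t : LaurentSeries A) (p : A[X]) : LaurentSeries A := p.eval₂ HahnSeries.C t

theorem iota_comp_C :
    (iota A).comp (HahnSeries.C : A →+* LaurentSeries A) =
      (algebraMap L (LaurentSeries L)).comp A.subtype := by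
  ext1 c
  exact iota_cA A c

theorem pi_comp_C :
    (pi π).comp (HahnSeries.C : A →+* LaurentSeries A) =
      (algebraMap k (LaurentSeries k)).comp π := by
  ext1 c
  exact pi_cA π c

theorem iota_evA (t : LaurentSeries A) (p : A[X]) :
    iota A (evA t p) = aeval (iota A t) (p.map A.subtype) := by
  rw [evA, Polynomial.hom_eval₂, iota_comp_C, aeval_def, Polynomial.eval₂_map]

theorem pi_evA (t : LaurentSeries A) (p : A[X]) :
    pi π (evA t p) = aeval (pi π t) (p.map π) := by
  rw [evA, Polynomial.hom_eval₂, pi_comp_C, aeval_def, Polynomial.eval₂_map]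

/-- simultaneous normalisation of finitely many polynomials -/
theorem exists_normalize {ι : Type*} [Fintype ι] (f : ι → L[X]) (hf : ∃ i, f i ≠ 0) :
    ∃ (c : L) (p : ι → A[X]), c ≠ 0 ∧ (∀ i, (p i).map A.subtype = C c⁻¹ * f i) ∧
      ∃ i, (p i).map π ≠ 0 := by
  classical
  set S : Finset L := Finset.univ.biUnion (fun i => (f i).coeffs) with hS
  have hSne : S.Nonempty := by
    obtain ⟨i, hi⟩ := hf
    refine ⟨(f i).leadingCoeff, ?_⟩
    rw [hS, Finset.mem_biUnion]
    exact ⟨i, Finset.mem_univ _, Polynomial.coeff_mem_coeffs (by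
      rw [Polynomial.coeff_natDegree]; exact Polynomial.leadingCoeff_ne_zero.mpr hi)⟩
  obtain ⟨c, hcS, hmax⟩ := Finset.exists_max_image S A.valuation hSne
  have hc0 : c ≠ 0 := by
    rw [hS, Finset.mem_biUnion] at hcS
    obtain ⟨i, _, hi⟩ := hcS
    rw [Polynomial.mem_coeffs_iff] at hi
    obtain ⟨n, hn, rfl⟩ := hi
    exact Polynomial.mem_support_iff.mp hn
  have hmem : ∀ i n, c⁻¹ * (f i).coeff n ∈ A := by
    intro i n
    by_cases h0 : (f i).coeff n = 0
    · rw [h0, mul_zero]; exact A.zero_mem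
    · have hin : (f i).coeff n ∈ S := by
        rw [hS, Finset.mem_biUnion]
        exact ⟨i, Finset.mem_univ _, Polynomial.coeff_mem_coeffs h0⟩
      rw [← A.valuation_le_one_iff, map_mul, map_inv₀]
      have hv : A.valuation c ≠ 0 := (Valuation.ne_zero_iff _).mpr hc0
      rw [inv_mul_le_iff₀ (zero_lt_iff.mpr hv), mul_one]
      exact hmax _ hin
  have hl : ∀ i, C c⁻¹ * f i ∈ Polynomial.lifts A.subtype := by
    intro i
    rw [Polynomial.lifts_iff_coeff_lifts]
    intro n
    rw [Polynomial.coeff_C_mul]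
    exact ⟨⟨_, hmem i n⟩, rfl⟩
  choose p hp using fun i => (Polynomial.mem_lifts _).mp (hl i)
  refine ⟨c, p, hc0, hp, ?_⟩
  rw [hS, Finset.mem_biUnion] at hcS
  obtain ⟨i, _, hi⟩ := hcS
  rw [Polynomial.mem_coeffs_iff] at hi
  obtain ⟨n, _, hn⟩ := hi
  refine ⟨i, fun h0 => ?_⟩
  have h1 : ((p i).coeff n : L) = 1 := by
    have := congrArg (fun q => q.coeff n) (hp i)
    simp only [Polynomial.coeff_map, Polynomial.coeff_C_mul] at this
    rw [← hn, inv_mul_cancel₀ hc0] at this
    exact this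
  have h2 : (p i).coeff n = 1 := Subtype.ext h1
  have h3 := congrArg (fun q => q.coeff n) h0
  simp only [Polynomial.coeff_map, h2, map_one, Polynomial.coeff_zero] at h3
  exact one_ne_zero h3

variable (F : IntermediateField L (LaurentSeries L))

/-- The formal core: `F = ⊕ L(t) w_i` with `π(t)^m π(w_i)` linearly independent over `k`. -/
structure CoreData (n : ℕ) (t : LaurentSeries A) (w : Fin n → LaurentSeries A) : Prop where
  surj : Function.Surjective π
  pos : 0 < n
  t_mem : iota A t ∈ F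
  w_mem : ∀ i, iota A (w i) ∈ F
  span : ∀ y ∈ F, ∃ (g : L[X]) (f : Fin n → L[X]), g ≠ 0 ∧
    aeval (iota A t) g * y = ∑ i, aeval (iota A t) (f i) * iota A (w i)
  indep : ∀ f : Fin n → k[X], ∑ i, aeval (pi π t) (f i) * pi π (w i) = 0 → ∀ i, f i = 0

variable {π F}
variable {n : ℕ} {t : LaurentSeries A} {w : Fin n → LaurentSeries A}

/-- integral combination -/
def comb (t : LaurentSeries A) (w : Fin n → LaurentSeries A) (p : Fin n → A[X]) :
    LaurentSeries A := ∑ i, evA t (p i) * w i

theorem iota_comb (p : Fin n → A[X]) :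
    iota A (comb t w p) = ∑ i, aeval (iota A t) ((p i).map A.subtype) * iota A (w i) := by
  rw [comb, map_sum]
  exact Finset.sum_congr rfl fun i _ => by rw [map_mul, iota_evA]

theorem pi_comb (p : Fin n → A[X]) :
    pi π (comb t w p) = ∑ i, aeval (pi π t) ((p i).map π) * pi π (w i) := by
  rw [comb, map_sum]
  exact Finset.sum_congr rfl fun i _ => by rw [map_mul, pi_evA]

namespace CoreData

variable (H : CoreData π F n t w)
include H

theorem pi_comb_ne_zero {p : Fin n → A[X]} (hp : ∃ i, (p i).map π ≠ 0) :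
    pi π (comb t w p) ≠ 0 := by
  intro h0
  rw [pi_comb] at h0
  obtain ⟨i, hi⟩ := hp
  exact hi (H.indep _ h0 i)

theorem aeval_pi_ne_zero {p : k[X]} (hp : p ≠ 0) : aeval (pi π t) p ≠ 0 := by
  classical
  intro h0
  have := H.indep (fun i => if i = ⟨0, H.pos⟩ then p else 0) (by
    apply Finset.sum_eq_zero
    intro i _
    by_cases hi : i = ⟨0, H.pos⟩
    · simp [hi, h0]
    · simp [hi]) ⟨0, H.pos⟩
  simp at this
  exact hp this

theorem pi_evA_ne_zero {p : A[X]} (hp : p.map π ≠ 0) : pi π (evA t p) ≠ 0 := by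
  rw [pi_evA]; exact H.aeval_pi_ne_zero hp

/-- normal form of a polynomial in `t` -/
theorem exists_norm_poly {g : L[X]} (hg : g ≠ 0) :
    ∃ (c : L) (p : A[X]), c ≠ 0 ∧ p.map π ≠ 0 ∧
      aeval (iota A t) g = algebraMap L (LaurentSeries L) c * iota A (evA t p) := by
  obtain ⟨c, p, hc, hp, ⟨_, hne⟩⟩ := exists_normalize π (fun _ : Unit => g) ⟨(), hg⟩
  refine ⟨c, p (), hc, hne, ?_⟩
  rw [iota_evA, hp (), map_mul, aeval_C, ← mul_assoc, ← map_mul, mul_inv_cancel₀ hc, map_one,
    one_mul]

theorem aeval_iota_ne_zero {g : L[X]} (hg : g ≠ 0) : aeval (iota A t) g ≠ 0 := by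
  obtain ⟨c, p, hc, hp, h⟩ := H.exists_norm_poly hg
  rw [h]
  refine mul_ne_zero ?_ (iota_ne_zero_of_pi_ne_zero π (H.pi_evA_ne_zero hp))
  rw [Ne, map_eq_zero]; exact hc

/-- normal form of a combination -/
theorem exists_norm_comb {f : Fin n → L[X]} (hf : ∃ i, f i ≠ 0) :
    ∃ (c : L) (p : Fin n → A[X]), c ≠ 0 ∧ (∃ i, (p i).map π ≠ 0) ∧
      ∑ i, aeval (iota A t) (f i) * iota A (w i) =
        algebraMap L (LaurentSeries L) c * iota A (comb t w p) := by
  obtain ⟨c, p, hc, hp, hne⟩ := exists_normalize π f hf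
  refine ⟨c, p, hc, hne, ?_⟩
  rw [iota_comb, Finset.mul_sum]
  refine Finset.sum_congr rfl fun i _ => ?_
  rw [hp i, map_mul, aeval_C, ← mul_assoc, ← mul_assoc, ← map_mul, mul_inv_cancel₀ hc, map_one,
    one_mul]

theorem toNorm : Norm π F where
  surj := H.surj
  norm := by
    intro y hy hy0
    obtain ⟨g, f, hg, hgf⟩ := H.span y hy
    have hf : ∃ i, f i ≠ 0 := by
      by_contra hcon
      push Not at hcon
      have : aeval (iota A t) g * y = 0 := by
        rw [hgf]; exact Finset.sum_eq_zero fun i _ => by rw [hcon i]; simp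
      exact (mul_ne_zero (H.aeval_iota_ne_zero hg) hy0) this
    obtain ⟨c, p, hc, hp, h1⟩ := H.exists_norm_poly hg
    obtain ⟨c', p', hc', hp', h2⟩ := H.exists_norm_comb hf
    refine ⟨c⁻¹ * c', comb t w p', evA t p, mul_ne_zero (inv_ne_zero hc) hc',
      H.pi_comb_ne_zero hp', H.pi_evA_ne_zero hp, ?_⟩
    rw [h1, h2] at hgf
    have hcL : algebraMap L (LaurentSeries L) c ≠ 0 := by rw [Ne, map_eq_zero]; exact hc
    rw [map_mul, map_inv₀, mul_assoc, ← hgf]
    field_simp

end CoreData

end Fermat.Agent.RED.Gauss
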