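import Mathlib
import Fermat.Prelude.Def_ModularCurve_LaurentCoeff

/-!
# RED/Gauss: descent and ascent of the coefficient field for subfields of Laurent series
-/

set_option autoImplicit false
noncomputable section

namespace Fermat.Agent.RED

open ModularCurve IntermediateField

section Proj

variable {k₀ k₁ : Type*} [Field k₀] [Field k₁] [Algebra k₀ k₁]

/-- coefficientwise application of a `k₀`-linear form -/
def projLS (φ : k₁ →ₗ[k₀] k₀) : LaurentSeries k₁ →+ LaurentSeries k₀ where
  toFun x := x.map φ
  map_zero' := by ext; simp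
  map_add' x y := by ext; simp

@[simp] theorem projLS_coeff (φ : k₁ →ₗ[k₀] k₀) (x : LaurentSeries k₁) (n : ℤ) :
    (projLS φ x).coeff n = φ (x.coeff n) := rfl

theorem projLS_mul_coeffMap (φ : k₁ →ₗ[k₀] k₀) (y : LaurentSeries k₁) (z : LaurentSeries k₀) :
    projLS φ (y * coeffMap (algebraMap k₀ k₁) z) = projLS φ y * z := by
  ext n
  have hs1 : (coeffMap (algebraMap k₀ k₁) z).support ⊆ z.support := by
    intro m hm
    rw [HahnSeries.mem_support] at hm ⊢
    intro h0
    apply hm
    rw [coeffMap_coeff, h0, map_zero]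
  have hs2 : (projLS φ y).support ⊆ y.support := by
    intro m hm
    rw [HahnSeries.mem_support] at hm ⊢
    intro h0
    apply hm
    rw [projLS_coeff, h0, map_zero]
  rw [projLS_coeff, HahnSeries.coeff_mul_right' z.isPWO_support hs1,
    HahnSeries.coeff_mul_left' y.isPWO_support hs2, map_sum]
  refine Finset.sum_congr rfl fun ij _ => ?_
  rw [coeffMap_coeff, projLS_coeff, mul_comm, ← Algebra.smul_def, map_smul, smul_eq_mul, mul_comm]

theorem coeff_algebraMap_mul {k : Type*} [Field k] (c : k) (y : LaurentSeries k) (n : ℤ) :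
    (algebraMap k (LaurentSeries k) c * y).coeff n = c * y.coeff n := by
  rw [algebraMap_laurentSeries_eq_single, HahnSeries.single_zero_mul_eq_smul,
    HahnSeries.coeff_smul, smul_eq_mul]

theorem projLS_smul (φ : k₁ →ₗ[k₀] k₀) (c : k₁) (y : LaurentSeries k₁) :
    projLS φ (algebraMap k₁ (LaurentSeries k₁) c * y) =
      projLS (φ.comp (LinearMap.mulLeft k₀ c)) y := by
  ext n
  simp [coeff_algebraMap_mul]

theorem projLS_coeffMap (φ : k₁ →ₗ[k₀] k₀) (z : LaurentSeries k₀) :
    projLS φ (coeffMap (algebraMap k₀ k₁) z) = algebraMap k₀ (LaurentSeries k₀) (φ 1) * z := by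
  ext n
  rw [projLS_coeff, coeffMap_coeff, coeff_algebraMap_mul, Algebra.algebraMap_eq_smul_one, map_smul,
    smul_eq_mul, mul_comm]

theorem projLS_mem_adjoin (S : Set (LaurentSeries k₀)) (a : LaurentSeries k₁)
    (ha : a ∈ Algebra.adjoin k₁ (coeffMap (algebraMap k₀ k₁) '' S)) (φ : k₁ →ₗ[k₀] k₀) :
    projLS φ a ∈ Algebra.adjoin k₀ S := by
  have ha' := ha
  rw [← Subalgebra.mem_toSubmodule, Algebra.adjoin_eq_span] at ha'
  clear ha
  induction ha' using Submodule.span_induction generalizing φ with
  | mem m hm =>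
    have : m ∈ (Submonoid.closure S).map (coeffMap (algebraMap k₀ k₁) : _ →* _) := by
      rw [MonoidHom.map_mclosure]; exact hm
    obtain ⟨m₀, hm₀, rfl⟩ := this
    show projLS φ (coeffMap (algebraMap k₀ k₁) m₀) ∈ _
    rw [projLS_coeffMap]
    refine mul_mem (Subalgebra.algebraMap_mem _ _) ?_
    have hle : Submonoid.closure S ≤ (Algebra.adjoin k₀ S).toSubmonoid :=
      Submonoid.closure_le.mpr Algebra.subset_adjoin
    exact hle hm₀
  | zero => rw [map_zero]; exact zero_mem _
  | add x y _ _ hx hy => rw [map_add]; exact add_mem (hx φ) (hy φ)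
  | smul c x _ hx => rw [Algebra.smul_def, projLS_smul]; exact hx _

/-- Descent: a series with coefficients in `k₀` lying in the field generated over `k₁` by series
with coefficients in `k₀` lies in the field generated by them over `k₀`. -/
theorem mem_adjoin_of_coeffMap_mem (S : Set (LaurentSeries k₀)) (x : LaurentSeries k₀)
    (hx : coeffMap (algebraMap k₀ k₁) x ∈
      IntermediateField.adjoin k₁ (coeffMap (algebraMap k₀ k₁) '' S)) :
    x ∈ IntermediateField.adjoin k₀ S := by
  obtain ⟨a, ha, b, hb, hxab⟩ := IntermediateField.mem_adjoin_iff_div.mp hx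
  by_cases hb0 : b = 0
  · rw [hb0, div_zero] at hxab
    have : x = 0 := (coeffMap (algebraMap k₀ k₁)).injective (by rw [hxab, map_zero])
    rw [this]; exact zero_mem _
  obtain ⟨n, hn⟩ : ∃ n, b.coeff n ≠ 0 := by
    by_contra hall
    push Not at hall
    exact hb0 (HahnSeries.ext (funext hall))
  obtain ⟨φ, hφ⟩ : ∃ φ : k₁ →ₗ[k₀] k₀, φ (b.coeff n) ≠ 0 := by
    by_contra hall
    push Not at hall
    exact hn ((Module.forall_dual_apply_eq_zero_iff k₀ (b.coeff n)).mp hall)
  have hrel : b * coeffMap (algebraMap k₀ k₁) x = a := by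
    rw [hxab]; field_simp
  have h1 : projLS φ b * x = projLS φ a := by rw [← projLS_mul_coeffMap, hrel]
  have hb1 : projLS φ b ≠ 0 := by
    intro h0
    apply hφ
    rw [← projLS_coeff, h0, HahnSeries.coeff_zero]
  have h2 : x = projLS φ a / projLS φ b := by
    rw [← h1]; field_simp
  rw [h2]
  exact div_mem (IntermediateField.algebra_adjoin_le_adjoin k₀ S (projLS_mem_adjoin S a ha φ))
    (IntermediateField.algebra_adjoin_le_adjoin k₀ S (projLS_mem_adjoin S b hb φ))

end Proj

section Ascent

variable {k₀ k₁ : Type*} [Field k₀] [Field k₁] (f : k₀ →+* k₁)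

theorem coeffMap_algebraMap (c : k₀) :
    coeffMap f (algebraMap k₀ (LaurentSeries k₀) c) = algebraMap k₁ (LaurentSeries k₁) (f c) := by
  rw [algebraMap_laurentSeries_eq_single, algebraMap_laurentSeries_eq_single, coeffMap_single]

/-- Ascent. -/
theorem coeffMap_mem_adjoin (S : Set (LaurentSeries k₀)) (x : LaurentSeries k₀)
    (hx : x ∈ IntermediateField.adjoin k₀ S) :
    coeffMap f x ∈ IntermediateField.adjoin k₁ (coeffMap f '' S) := by
  induction hx using IntermediateField.adjoin_induction with
  | mem y hy => exact IntermediateField.subset_adjoin _ _ ⟨y, hy, rfl⟩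
  | algebraMap c => rw [coeffMap_algebraMap]; exact IntermediateField.algebraMap_mem _ _
  | add y z _ _ hy hz => rw [map_add]; exact add_mem hy hz
  | inv y _ hy => rw [map_inv₀]; exact inv_mem hy
  | mul y z _ _ hy hz => rw [map_mul]; exact mul_mem hy hz

end Ascent

end Fermat.Agent.RED
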