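import Fermat.Agent.S28.Core
import Fermat.Agent.RED.Gauss.FamilyExt
import Fermat.Agent.RED.Gauss.Descent

/-!
# RED/Gauss: the unit `u` lies in the modular function field, in characteristic `0` and `ℓ`
-/

set_option autoImplicit false
noncomputable section
open Polynomial ModularCurve IntermediateField

namespace Fermat.Agent.RED

open Fermat.Agent.S28

/-- The formal core of S28 together with the fact that the unit lies in the function fields. -/
structure IsCoreExt (N : ℕ) [NeZero N] (ℓ : ℕ) [Fact ℓ.Prime] (n : ℕ) (u : LaurentSeries ℤ) :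
    Prop where
  core : IsCore N ℓ n u
  u_mem : castLS ℚ u ∈ modularFunctionFieldFull N
  ubar_mem : castLS (ZMod ℓ) u ∈ modularFunctionFieldFullC (ZMod ℓ) N

section Abstract

variable {𝕜 : Type*} [Field 𝕜] (N : ℕ) [NeZero N] {ι : Type*} [Fintype ι] [DecidableEq ι]

theorem coeff_qExpand_qExpand_jqModC (R : Type*) [CommRing R] :
    (qExpand R N (qExpand R N (jqModC R))).coeff (-((N : ℤ) ^ 2)) = 1 := by
  have h : (-((N : ℤ) ^ 2)) = (N : ℤ) * ((N : ℤ) * (-1)) := by ring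
  rw [h, qExpand_coeff_mul, qExpand_coeff_mul, coeff_jqModC_neg_one]

/-- Reverse Lagrange interpolation: `x` is a rational function of `j(q)` and `j(q^N)`. -/
theorem mem_adjoin_pair_of_family (c₀ : ι) (Ub Hb : ι → LaurentSeries 𝕜) (x : LaurentSeries 𝕜)
    (hU : Ub c₀ = qExpand 𝕜 N x)
    (hH : Hb c₀ = qExpand 𝕜 N (qExpand 𝕜 N (jqModC 𝕜)))
    (hne : ∀ c, c ≠ c₀ → Hb c ≠ Hb c₀)
    (hchar : ∀ i, ∃ P : 𝕜[X],
      (∏ c, (X - C (Hb c))).coeff i = aeval (qExpand 𝕜 N (jqModC 𝕜)) P)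
    (hlag : ∀ i, ∃ P : 𝕜[X],
      (∑ c, C (Ub c) * ∏ c' ∈ Finset.univ.erase c, (X - C (Hb c'))).coeff i =
        aeval (qExpand 𝕜 N (jqModC 𝕜)) P) :
    x ∈ IntermediateField.adjoin 𝕜 ({jqModC 𝕜, qExpand 𝕜 N (jqModC 𝕜)} : Set (LaurentSeries 𝕜)) := by
  set J := qExpand 𝕜 N (jqModC 𝕜) with hJ
  have h1 : Ub c₀ ∈ (𝕜⟮J⟯)⟮Hb c₀⟯ :=
    mem_adjoin_of_lagrange 𝕜⟮J⟯ Hb Ub c₀ hne
      (fun i => by obtain ⟨P, hP⟩ := hchar i; rw [hP]; exact aeval_mem_adjoin_simple_LS _ _)
      (fun i => by obtain ⟨P, hP⟩ := hlag i; rw [hP]; exact aeval_mem_adjoin_simple_LS _ _)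
  have h2 : Ub c₀ ∈ IntermediateField.adjoin 𝕜 ({J, Hb c₀} : Set (LaurentSeries 𝕜)) := by
    have : ((𝕜⟮J⟯)⟮Hb c₀⟯).restrictScalars 𝕜 =
        IntermediateField.adjoin 𝕜 ({J, Hb c₀} : Set (LaurentSeries 𝕜)) := by
      rw [IntermediateField.adjoin_simple_adjoin_simple]
    rw [← this]
    exact h1
  have h3 : IntermediateField.adjoin 𝕜 ({J, Hb c₀} : Set (LaurentSeries 𝕜)) =
      (IntermediateField.adjoin 𝕜
        ({jqModC 𝕜, qExpand 𝕜 N (jqModC 𝕜)} : Set (LaurentSeries 𝕜))).map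
          (qExpandAlgHomC 𝕜 N) := by
    rw [IntermediateField.adjoin_map, Set.image_pair, hH]
    rfl
  rw [h3] at h2
  obtain ⟨y, hy, hyx⟩ := h2
  have : y = x := by
    apply qExpand_injective (R := 𝕜) N
    rw [← hU]
    exact hyx
  rw [← this]
  exact hy

theorem adjoin_pair_le_full :
    IntermediateField.adjoin 𝕜 ({jqModC 𝕜, qExpand 𝕜 N (jqModC 𝕜)} : Set (LaurentSeries 𝕜)) ≤
      modularFunctionFieldFullC 𝕜 N := by
  rw [IntermediateField.adjoin_le_iff]
  rintro y (rfl | rfl)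
  · exact jqModC_mem_full 𝕜 N
  · exact jqModCd_mem_full 𝕜 N (dvd_refl N)

end Abstract

section Reduce

variable {N : ℕ} [NeZero N]

theorem transfer_aeval {κ : Type*} [Field κ] (π : NInt N →+* κ) (x : LaurentSeries (NInt N))
    (P : ℂ[X]) (hx : coeffMap (NInt N).subtype x = aeval (jN N) P) :
    ∃ Q : κ[X], coeffMap π x = aeval (qExpand κ N (jqModC κ)) Q := by
  have hinj : Function.Injective (coeffMap (NInt N).subtype) :=
    coeffMap_injective _ Subtype.val_injective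
  have hJ : coeffMap (NInt N).subtype (qExpand (NInt N) N (jqModC (NInt N))) = jN N :=
    coeffMap_qExpand_jqModC _ N
  obtain ⟨P', hP'⟩ := exists_lift_of_aeval_jN N (NInt N) P (by
    intro j
    rw [← hx]
    exact (x.coeff j).2)
  refine ⟨P'.map π, ?_⟩
  have h1 : x = aeval (qExpand (NInt N) N (jqModC (NInt N))) P' := by
    apply hinj
    rw [hx, coeffMap_aeval, hJ, hP']
  rw [h1, coeffMap_aeval, coeffMap_qExpand_jqModC]

variable {u : LaurentSeries ℤ} {ι : Type} [Fintype ι] [DecidableEq ι] {c₀ : ι}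
  {U : ι → LaurentSeries ℂ} {H : ℕ → ι → LaurentSeries ℂ}

theorem castLS_mem_of_family (h : IsRootFamily N u c₀ U H) (h' : IsRootFamilyExt N c₀ U (H N))
    {κ : Type*} [Field κ] (π : NInt N →+* κ) :
    castLS κ u ∈ IntermediateField.adjoin κ
      ({jqModC κ, qExpand κ N (jqModC κ)} : Set (LaurentSeries κ)) := by
  have hinj : Function.Injective (coeffMap (NInt N).subtype) :=
    coeffMap_injective _ Subtype.val_injective
  choose U' hU' using fun c => exists_coeffMap_subtype (NInt N) (U c) (h.U_int c)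
  choose H' hH' using fun c => exists_coeffMap_subtype (NInt N) (H N c) (h'.H_int c)
  have hH0 : H' c₀ = qExpand (NInt N) N (qExpand (NInt N) N (jqModC (NInt N))) := by
    apply hinj
    rw [hH', h.H_c₀ N (dvd_refl N), coeffMap_qExpand, coeffMap_qExpand, coeffMap_jqModC]
  refine mem_adjoin_pair_of_family N c₀ (fun c => coeffMap π (U' c)) (fun c => coeffMap π (H' c))
    _ ?_ ?_ ?_ ?_ ?_
  · have h1 : U' c₀ = qExpand (NInt N) N (castLS (NInt N) u) := by
      apply hinj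
      rw [hU', h.U_c₀, coeffMap_qExpand, coeffMap_castLS]
    show coeffMap π (U' c₀) = _
    rw [h1, coeffMap_qExpand, coeffMap_castLS]
  · show coeffMap π (H' c₀) = _
    rw [hH0, coeffMap_qExpand, coeffMap_qExpand, coeffMap_jqModC]
  · intro c hc heq
    have h1 := congrArg (fun z => HahnSeries.coeff z (-((N : ℤ) ^ 2))) heq
    simp only [coeffMap_coeff] at h1
    have h2 : (H' c).coeff (-((N : ℤ) ^ 2)) = 0 := by
      apply Subtype.val_injective
      have := congrArg (fun z => HahnSeries.coeff z (-((N : ℤ) ^ 2))) (hH' c)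
      simp only [coeffMap_coeff] at this
      rw [h'.H_top c hc] at this
      exact this
    rw [h2, hH0, coeff_qExpand_qExpand_jqModC, map_zero, map_one] at h1
    exact zero_ne_one h1
  · intro i
    obtain ⟨P, hP⟩ := h'.charpolyH_coeff i
    obtain ⟨Q, hQ⟩ := transfer_aeval π ((∏ c, (X - C (H' c))).coeff i) P (by
      rw [← coeff_map, map_prod_X_sub_C, ← hP]
      simp only [hH'])
    refine ⟨Q, ?_⟩
    rw [← hQ, ← coeff_map, map_prod_X_sub_C]
  · intro i
    obtain ⟨P, hP⟩ := h'.lagrangeU_coeff i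
    obtain ⟨Q, hQ⟩ := transfer_aeval π
      ((∑ c, C (U' c) * ∏ c' ∈ Finset.univ.erase c, (X - C (H' c'))).coeff i) P (by
      rw [← coeff_map, Polynomial.map_sum, ← hP]
      simp only [Polynomial.map_mul, map_C, map_prod_X_sub_C, hH', hU'])
    refine ⟨Q, ?_⟩
    rw [← hQ, ← coeff_map, Polynomial.map_sum]
    simp only [Polynomial.map_mul, map_C, map_prod_X_sub_C]

/-- descent of the previous statement to a subfield of the coefficient field -/
theorem castLS_mem_full_of_mem {k₀ k₁ : Type*} [Field k₀] [Field k₁] [Algebra k₀ k₁]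
    (hu : castLS k₁ u ∈ IntermediateField.adjoin k₁
      ({jqModC k₁, qExpand k₁ N (jqModC k₁)} : Set (LaurentSeries k₁))) :
    castLS k₀ u ∈ modularFunctionFieldFullC k₀ N := by
  apply adjoin_pair_le_full (𝕜 := k₀) N
  apply mem_adjoin_of_coeffMap_mem (k₁ := k₁)
  rw [coeffMap_castLS, Set.image_pair, coeffMap_qExpand, coeffMap_jqModC]
  exact hu

theorem isCoreExt_of_family (ℓ : ℕ) [Fact ℓ.Prime] (hℓN : ¬ ℓ ∣ N)
    (h : IsRootFamily N u c₀ U H) (h' : IsRootFamilyExt N c₀ U (H N)) :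
    IsCoreExt N ℓ (Fintype.card ι) u where
  core := isCore_of_rootFamily N ℓ hℓN u c₀ U H h
  u_mem := by
    have := castLS_mem_full_of_mem (N := N) (u := u) (k₀ := ℚ) (k₁ := ℂ)
      (castLS_mem_of_family h h' (NInt N).subtype)
    exact this
  ubar_mem := by
    obtain ⟨κ, _, π, ⟨θ⟩⟩ := exists_residueField N ℓ hℓN
    letI : Algebra (ZMod ℓ) κ := θ.toAlgebra
    exact castLS_mem_full_of_mem (N := N) (u := u) (k₀ := ZMod ℓ) (k₁ := κ)
      (castLS_mem_of_family h h' π)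

end Reduce

/-- The extended core exists for every level prime to `ℓ`. -/
theorem exists_isCoreExt (N : ℕ) [NeZero N] (ℓ : ℕ) [Fact ℓ.Prime] (hℓN : ¬ ℓ ∣ N) :
    ∃ u : LaurentSeries ℤ, IsCoreExt N ℓ (Fintype.card (Q N)) u := by
  obtain ⟨u, U, H, h, h', -⟩ := exists_rootFamilyExt N
  exact ⟨u, isCoreExt_of_family ℓ hℓN h h'⟩

end Fermat.Agent.RED
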