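import Fermat.Agent.S28.Defs

/-!
# RED/Gauss: extension of the S28 root family (roles of `u` and `j_N` swapped)
-/

set_option autoImplicit false
noncomputable section
open Polynomial ModularCurve

namespace Fermat.Agent.RED

open Fermat.Agent.S28

/-- Extra properties of the `t`-expansions `Hn c` of the conjugates of `j(q^N)` (and `U c` of the
unit): integrality, `j(q^N)` has the strictly largest pole, and the symmetric functions /
Lagrange sums with the roles of `U` and `Hn` swapped are polynomials in `j`. -/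
structure IsRootFamilyExt (N : ℕ) [NeZero N] {ι : Type} [Fintype ι] [DecidableEq ι] (c₀ : ι)
    (U : ι → LaurentSeries ℂ) (Hn : ι → LaurentSeries ℂ) : Prop where
  H_int : ∀ c k, (Hn c).coeff k ∈ NInt N
  H_top : ∀ c, c ≠ c₀ → (Hn c).coeff (-((N : ℤ) ^ 2)) = 0
  charpolyH_coeff : ∀ i, ∃ P : ℂ[X], (∏ c, (X - C (Hn c))).coeff i = aeval (jN N) P
  lagrangeU_coeff : ∀ i, ∃ P : ℂ[X],
    (∑ c, C (U c) * ∏ c' ∈ Finset.univ.erase c, (X - C (Hn c'))).coeff i = aeval (jN N) P

end Fermat.Agent.RED
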