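import Fermat.Agent.RED.Gauss.Basic

set_option autoImplicit false
noncomputable section

open ModularCurve Polynomial

namespace Fermat.Agent.RED.Gauss

variable {L : Type*} [Field L] (A : ValuationSubring L)
variable {k : Type*} [Field k] (π : A →+* k)

/-- constants of `A` as Laurent series -/
def cA (c : A) : LaurentSeries A := HahnSeries.single 0 c

theorem iota_cA (c : A) : iota A (cA A c) = algebraMap L (LaurentSeries L) (c : L) := by
  rw [algebraMap_laurentSeries_eq_single, cA, iota, coeffMap_single]; rfl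

variable {A} in
theorem pi_cA (c : A) :
    pi π (cA A c) = algebraMap k (LaurentSeries k) (π c) := by
  rw [algebraMap_laurentSeries_eq_single, cA, pi, coeffMap_single]

variable (F : IntermediateField L (LaurentSeries L))

variable {A} in
/-- normalisation hypothesis: every nonzero element of `F` is a constant times a quotient of two
integral series with nonzero reduction -/
structure Norm : Prop where
  surj : Function.Surjective π
  norm : ∀ y ∈ F, y ≠ 0 → ∃ (c : L) (a b : LaurentSeries A), c ≠ 0 ∧ pi π a ≠ 0 ∧ pi π b ≠ 0 ∧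
    y * iota A b = algebraMap L (LaurentSeries L) c * iota A a

variable {A F π}

theorem inv_rel {y : LaurentSeries L} {c : L} {a b : LaurentSeries A} (hc : c ≠ 0) (hy : y ≠ 0)
    (h : y * iota A b = algebraMap L (LaurentSeries L) c * iota A a) :
    y⁻¹ * iota A a = algebraMap L (LaurentSeries L) c⁻¹ * iota A b := by
  have hc' : algebraMap L (LaurentSeries L) c ≠ 0 := by
    rw [Ne, map_eq_zero]; exact hc
  rw [map_inv₀]
  field_simp
  rw [mul_comm, ← h, mul_comm]

/-- the Gauss valuation ring of `F` -/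
def gO (hN : Norm π F) : ValuationSubring F where
  toSubring := (bigO π).comap (algebraMap F (LaurentSeries L))
  mem_or_inv_mem' := by
    intro x
    by_cases hx : x = 0
    · left; rw [hx]; exact Subring.zero_mem _
    have hx' : (x : LaurentSeries L) ≠ 0 := fun h => hx (Subtype.ext h)
    obtain ⟨c, a, b, hc, ha, hb, h⟩ := hN.norm x x.2 hx'
    rcases A.mem_or_inv_mem c with hcA | hcA
    · left
      refine ⟨cA A ⟨c, hcA⟩ * a, b, hb, ?_⟩
      rw [map_mul, iota_cA]; exact h
    · right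
      refine ⟨cA A ⟨c⁻¹, hcA⟩ * b, a, ha, ?_⟩
      rw [map_mul, iota_cA]
      exact inv_rel hc hx' h

theorem mem_gO (hN : Norm π F) {x : F} : x ∈ gO hN ↔ (x : LaurentSeries L) ∈ bigO π := Iff.rfl

/-- `gO → bigO` -/
def toBig (hN : Norm π F) : gO hN →+* bigO π where
  toFun x := ⟨((x : F) : LaurentSeries L), x.2⟩
  map_one' := rfl
  map_mul' _ _ := rfl
  map_zero' := rfl
  map_add' _ _ := rfl

/-- the reduction map on the Gauss ring, with values in `k((q))` -/
def gRed (hN : Norm π F) : gO hN →+* LaurentSeries k := (bigRed π).comp (toBig hN)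

theorem gRed_eq (hN : Norm π F) (x : gO hN) {a b : LaurentSeries A} (hb : pi π b ≠ 0)
    (h : ((x : F) : LaurentSeries L) * iota A b = iota A a) : gRed hN x = pi π a / pi π b :=
  bigRed_eq π _ hb h

theorem integral_mem_gO (hN : Norm π F) {a : LaurentSeries A} (ha : iota A a ∈ F) :
    (⟨iota A a, ha⟩ : F) ∈ gO hN := iota_mem_bigO π a

theorem gRed_integral (hN : Norm π F) {a : LaurentSeries A} (ha : iota A a ∈ F) :
    gRed hN ⟨⟨iota A a, ha⟩, integral_mem_gO hN ha⟩ = pi π a := bigRed_iota π a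

theorem algebraMap_mem_gO (hN : Norm π F) (c : A) : algebraMap L F (c : L) ∈ gO hN := by
  rw [mem_gO]
  have : ((algebraMap L F (c : L) : F) : LaurentSeries L) = iota A (cA A c) := by
    rw [iota_cA]; rfl
  rw [this]; exact iota_mem_bigO π _

theorem gRed_algebraMap (hN : Norm π F) (c : A) :
    gRed hN ⟨algebraMap L F (c : L), algebraMap_mem_gO hN c⟩ =
      algebraMap k (LaurentSeries k) (π c) := by
  rw [gRed_eq hN _ (a := cA A c) (b := 1) (by simp) (by rw [iota_cA]; simp), pi_cA]; simp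

theorem coe_unit_inv (u : Aˣ) : (((u⁻¹ : Aˣ) : A) : L) = ((u : A) : L)⁻¹ := by
  have h1 : ((u : A) : L) * (((u⁻¹ : Aˣ) : A) : L) = 1 :=
    congrArg Subtype.val (Units.mul_inv u)
  exact eq_inv_of_mul_eq_one_right h1

theorem coe_algebraMap (c : L) :
    ((algebraMap L F c : F) : LaurentSeries L) = algebraMap L (LaurentSeries L) c := rfl

theorem pi_eq_zero_of_not_isUnit (hπ : Function.Surjective π) {c : A} (hc : ¬ IsUnit c) :
    π c = 0 := by
  have hmax : (RingHom.ker π).IsMaximal := RingHom.ker_isMaximal_of_surjective π hπ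
  have : RingHom.ker π = IsLocalRing.maximalIdeal A := IsLocalRing.eq_maximalIdeal hmax
  have h2 : c ∈ RingHom.ker π := by rw [this]; exact hc
  exact h2

theorem residue_eq_zero_of_inv_not_mem (hπ : Function.Surjective π) {c : L} (hc : c ∈ A)
    (hc' : c⁻¹ ∉ A) : π ⟨c, hc⟩ = 0 := by
  apply pi_eq_zero_of_not_isUnit hπ
  intro hu
  obtain ⟨u, hu⟩ := hu
  apply hc'
  have : c⁻¹ = (((u⁻¹ : Aˣ) : A) : L) := by
    rw [coe_unit_inv, hu]
  rw [this]; exact Subtype.mem _

/-- structure of an element of the Gauss ring -/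
theorem exists_rep (hN : Norm π F) (x : gO hN) (hx : x ≠ 0) :
    ∃ (c : A) (a b : LaurentSeries A), c ≠ 0 ∧ pi π a ≠ 0 ∧ pi π b ≠ 0 ∧
      ((x : F) : LaurentSeries L) * iota A b = iota A (cA A c * a) := by
  have hx' : ((x : F) : LaurentSeries L) ≠ 0 := fun h => hx (Subtype.ext (Subtype.ext h))
  obtain ⟨c, a, b, hc, ha, hb, h⟩ := hN.norm x (x : F).2 hx'
  by_cases hcA : c ∈ A
  · refine ⟨⟨c, hcA⟩, a, b, fun h0 => hc (congrArg Subtype.val h0), ha, hb, ?_⟩
    rw [map_mul, iota_cA]; exact h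
  · exfalso
    have hcA' : c⁻¹ ∈ A := (A.mem_or_inv_mem c).resolve_left hcA
    have hinv : ((x : F)⁻¹ : F) ∈ gO hN := by
      refine ⟨cA A ⟨c⁻¹, hcA'⟩ * b, a, ha, ?_⟩
      rw [map_mul, iota_cA]
      exact inv_rel hc hx' h
    have h0 : gRed hN ⟨(x : F)⁻¹, hinv⟩ = 0 := by
      rw [gRed_eq hN _ (a := cA A ⟨c⁻¹, hcA'⟩ * b) (b := a) ha
        (by rw [map_mul, iota_cA]; exact inv_rel hc hx' h), map_mul, pi_cA,
        residue_eq_zero_of_inv_not_mem hN.surj hcA' (by rwa [inv_inv])]
      simp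
    have h1 : x * ⟨(x : F)⁻¹, hinv⟩ = 1 := by
      apply Subtype.ext
      show (x : F) * (x : F)⁻¹ = 1
      exact mul_inv_cancel₀ (fun h => hx (Subtype.ext h))
    have := congrArg (gRed hN) h1
    rw [map_mul, h0, mul_zero, map_one] at this
    exact zero_ne_one this

theorem gRed_rep (hN : Norm π F) (x : gO hN) {c : A} {a b : LaurentSeries A} (hb : pi π b ≠ 0)
    (h : ((x : F) : LaurentSeries L) * iota A b = iota A (cA A c * a)) :
    gRed hN x = algebraMap k (LaurentSeries k) (π c) *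
      (pi π a / pi π b) := by
  rw [gRed_eq hN x hb h, map_mul, pi_cA, mul_div_assoc]

theorem isUnit_iff_gRed_ne_zero (hN : Norm π F) (x : gO hN) : IsUnit x ↔ gRed hN x ≠ 0 := by
  constructor
  · intro hu
    exact (hu.map (gRed hN)).ne_zero
  · intro hne
    have hx : x ≠ 0 := by rintro rfl; exact hne (map_zero _)
    have hx' : ((x : F) : LaurentSeries L) ≠ 0 := fun h => hx (Subtype.ext (Subtype.ext h))
    obtain ⟨c, a, b, hc, ha, hb, h⟩ := exists_rep hN x hx
    rw [gRed_rep hN x hb h] at hne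
    have hres : π c ≠ 0 := by
      intro h0; rw [h0] at hne; simp at hne
    have hcu : IsUnit c := by
      by_contra hnu
      exact hres (pi_eq_zero_of_not_isUnit hN.surj hnu)
    obtain ⟨u, rfl⟩ := hcu
    have hinv : ((x : F)⁻¹ : F) ∈ gO hN := by
      refine ⟨cA A ((u⁻¹ : Aˣ) : A) * b, a, ha, ?_⟩
      rw [map_mul, iota_cA]
      rw [map_mul, iota_cA] at h
      have hu0 : (((u : A)) : L) ≠ 0 := fun h0 => hc (Subtype.ext h0)
      have := inv_rel hu0 hx' h
      rw [coe_unit_inv]; exact this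
    refine IsUnit.of_mul_eq_one ⟨(x : F)⁻¹, hinv⟩ ?_
    apply Subtype.ext
    show (x : F) * (x : F)⁻¹ = 1
    exact mul_inv_cancel₀ (fun h => hx (Subtype.ext h))

theorem gRed_eq_zero_iff (hN : Norm π F) (x : gO hN) :
    gRed hN x = 0 ↔ x ∈ IsLocalRing.maximalIdeal (gO hN) := by
  rw [IsLocalRing.mem_maximalIdeal, mem_nonunits_iff, isUnit_iff_gRed_ne_zero, not_not]

theorem algebraMap_mem_gO_iff (hN : Norm π F) (c : L) : algebraMap L F c ∈ gO hN ↔ c ∈ A := by
  constructor
  · intro h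
    by_contra hc
    have hc' : c⁻¹ ∈ A := (A.mem_or_inv_mem c).resolve_left hc
    have hc0 : c ≠ 0 := by rintro rfl; exact hc A.zero_mem
    have h0 := gRed_algebraMap hN ⟨c⁻¹, hc'⟩
    rw [residue_eq_zero_of_inv_not_mem hN.surj hc' (by rwa [inv_inv]), map_zero] at h0
    have h1 : (⟨algebraMap L F c, h⟩ : gO hN) *
        ⟨algebraMap L F (c⁻¹), algebraMap_mem_gO hN ⟨c⁻¹, hc'⟩⟩ = 1 := by
      apply Subtype.ext
      show algebraMap L F c * algebraMap L F c⁻¹ = 1
      rw [← map_mul, mul_inv_cancel₀ hc0, map_one]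
    have := congrArg (gRed hN) h1
    rw [map_mul, h0, mul_zero, map_one] at this
    exact zero_ne_one this
  · intro h
    exact algebraMap_mem_gO hN ⟨c, h⟩

/-- every nonzero element of `F` is a constant times a unit of the Gauss ring -/
theorem exists_const_mul_unit (hN : Norm π F) (x : F) (hx : x ≠ 0) :
    ∃ (c : L) (u : (gO hN)ˣ), c ≠ 0 ∧ x = algebraMap L F c * ((u : gO hN) : F) := by
  have hx' : (x : LaurentSeries L) ≠ 0 := fun h => hx (Subtype.ext h)
  obtain ⟨c, a, b, hc, ha, hb, h⟩ := hN.norm x x.2 hx'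
  have hcF : algebraMap L F c ≠ 0 := by rw [Ne, map_eq_zero]; exact hc
  have hrel : (((algebraMap L F c⁻¹) * x : F) : LaurentSeries L) * iota A b = iota A a := by
    have hc' : algebraMap L (LaurentSeries L) c ≠ 0 := by rw [Ne, map_eq_zero]; exact hc
    rw [IntermediateField.coe_mul, coe_algebraMap, mul_assoc, h, map_inv₀,
      inv_mul_cancel_left₀ hc']
  have hmem : ((algebraMap L F c⁻¹) * x : F) ∈ gO hN := ⟨a, b, hb, hrel⟩
  have hu : IsUnit (⟨(algebraMap L F c⁻¹) * x, hmem⟩ : gO hN) := by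
    rw [isUnit_iff_gRed_ne_zero, gRed_eq hN ⟨_, hmem⟩ hb hrel]
    exact div_ne_zero ha hb
  obtain ⟨u, hu⟩ := hu
  refine ⟨c, u, hc, ?_⟩
  rw [hu]
  show x = algebraMap L F c * ((algebraMap L F c⁻¹) * x)
  rw [map_inv₀, mul_inv_cancel_left₀ hcF]

/-- the residue field of the Gauss valuation, as a subfield of `k((q))` -/
def gFb (hN : Norm π F) : IntermediateField k (LaurentSeries k) where
  toSubalgebra :=
    { toSubsemiring := (gRed hN).range.toSubsemiring
      algebraMap_mem' := by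
        intro r
        obtain ⟨c, rfl⟩ := hN.surj r
        exact ⟨_, gRed_algebraMap hN c⟩ }
  inv_mem' := by
    rintro _ ⟨x, rfl⟩
    by_cases h0 : gRed hN x = 0
    · rw [h0, inv_zero]; exact Subring.zero_mem _
    · obtain ⟨u, rfl⟩ := (isUnit_iff_gRed_ne_zero hN x).mpr h0
      refine ⟨((u⁻¹ : (gO hN)ˣ) : gO hN), ?_⟩
      have h1 : (u : gO hN) * ((u⁻¹ : (gO hN)ˣ) : gO hN) = 1 := by simp
      have h2 := congrArg (gRed hN) h1
      rw [map_mul, map_one] at h2
      exact eq_inv_of_mul_eq_one_right h2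

theorem mem_gFb (hN : Norm π F) {z : LaurentSeries k} :
    z ∈ gFb hN ↔ ∃ x : gO hN, gRed hN x = z := Iff.rfl

/-- the reduction map onto the residue field -/
def gRedF (hN : Norm π F) : gO hN →+* gFb hN where
  toFun x := ⟨gRed hN x, x, rfl⟩
  map_one' := Subtype.ext (map_one _)
  map_mul' _ _ := Subtype.ext (map_mul _ _ _)
  map_zero' := Subtype.ext (map_zero _)
  map_add' _ _ := Subtype.ext (map_add _ _ _)

@[simp] theorem coe_gRedF (hN : Norm π F) (x : gO hN) :
    ((gRedF hN x : gFb hN) : LaurentSeries k) = gRed hN x := rfl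

theorem gRedF_surjective (hN : Norm π F) : Function.Surjective (gRedF hN) := by
  rintro ⟨_, x, rfl⟩
  exact ⟨x, rfl⟩

theorem gRedF_eq_zero_iff (hN : Norm π F) (x : gO hN) :
    gRedF hN x = 0 ↔ x ∈ IsLocalRing.maximalIdeal (gO hN) := by
  rw [← gRed_eq_zero_iff]
  exact ⟨fun h => congrArg Subtype.val h, fun h => Subtype.ext h⟩

theorem gRedF_algebraMap (hN : Norm π F) (c : A) :
    gRedF hN ⟨algebraMap L F (c : L), algebraMap_mem_gO hN c⟩ =
      algebraMap k (gFb hN) (π c) :=
  Subtype.ext (gRed_algebraMap hN c)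

end Fermat.Agent.RED.Gauss
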