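import Fermat.Agent.S28.Analytic.MF
import Fermat.Agent.S28.Analytic.Conj
import Fermat.Agent.S24.HolPerMore

/-!
# RED/Gauss: `lau N` and the translation `τ ↦ τ + 1` (rotation `t ↦ ζ_N t`)
-/

set_option autoImplicit false
noncomputable section
open UpperHalfPlane Function Complex ModularForm CongruenceSubgroup
open scoped Manifold MatrixGroups
open Fermat.Agent.S24 Fermat.Agent.Common Fermat.Agent.S28

namespace Fermat.Agent.RED

local notation "Δ" => ModularForm.discriminant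

theorem discriminant_vadd_one (τ : ℍ) : Δ ((1 : ℝ) +ᵥ τ) = Δ τ := by
  have h := (mem_HolPer_iff.mp (discriminant_mem_HolPer 1)).2.1 τ
  simpa using h

/-- the translate of `f ∈ MF N` is in `MF N` (same exponent). -/
theorem shift_mul_pow_mem {N : ℕ} {f : ℍ → ℂ} {M : ℕ} (h : f * Δ ^ M ∈ HolPer N) :
    (fun τ => f ((1 : ℝ) +ᵥ τ)) * Δ ^ M ∈ HolPer N := by
  have h1 := shift_mem_HolPer h
  have h2 : (fun τ => (f * Δ ^ M) ((1 : ℝ) +ᵥ τ)) = (fun τ => f ((1 : ℝ) +ᵥ τ)) * Δ ^ M := by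
    funext τ
    simp only [Pi.mul_apply, Pi.pow_apply, discriminant_vadd_one]
  rwa [h2] at h1

theorem shift_mem_MF {N : ℕ} {f : ℍ → ℂ} (hf : f ∈ MF N) :
    (fun τ => f ((1 : ℝ) +ᵥ τ)) ∈ MF N := by
  obtain ⟨M, hM⟩ := hf
  exact ⟨M, shift_mul_pow_mem hM⟩

theorem comp_T_mem_MF {N : ℕ} {f : ℍ → ℂ} (hf : f ∈ MF N) :
    (fun τ => f (ModularGroup.T • τ)) ∈ MF N := by
  have := shift_mem_MF hf
  simpa only [modular_T_smul] using this

variable (N : ℕ) [NeZero N]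

theorem rot_lauDisc : rot (zetaU N) (lauDisc N) = lauDisc N := by
  have h : shiftHolPer N (discH N) = discH N := by
    apply Subtype.ext
    funext τ
    exact discriminant_vadd_one τ
  rw [lauDisc, ← qExpLaurent_shift, h]

/-- `lau N (f(· + 1)) = rot ζ_N (lau N f)`. -/
theorem lau_shift {f : ℍ → ℂ} (hf : f ∈ MF N) (hf' : (fun τ => f ((1 : ℝ) +ᵥ τ)) ∈ MF N) :
    lau N ⟨fun τ => f ((1 : ℝ) +ᵥ τ), hf'⟩ = rot (zetaU N) (lau N ⟨f, hf⟩) := by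
  obtain ⟨M, hM⟩ := mem_MF.mp hf
  have h : (⟨(fun τ => f ((1 : ℝ) +ᵥ τ)) * Δ ^ M, shift_mul_pow_mem hM⟩ : HolPer N) =
      shiftHolPer N ⟨f * Δ ^ M, hM⟩ := by
    apply Subtype.ext
    funext τ
    simp only [shiftHolPer_apply, Pi.mul_apply, Pi.pow_apply, discriminant_vadd_one]
  rw [lau_eq_div N ⟨f, hf⟩ M hM, lau_eq_div N ⟨fun τ => f ((1 : ℝ) +ᵥ τ), hf'⟩ M
    (shift_mul_pow_mem hM), rot_div, rot_pow, rot_lauDisc, ← qExpLaurent_shift, h]

/-- `lau N (f ∘ T) = rot ζ_N (lau N f)`. -/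
theorem lau_comp_T {f : ℍ → ℂ} (hf : f ∈ MF N) (hf' : (fun τ => f (ModularGroup.T • τ)) ∈ MF N) :
    lau N ⟨fun τ => f (ModularGroup.T • τ), hf'⟩ = rot (zetaU N) (lau N ⟨f, hf⟩) := by
  rw [← lau_shift N hf (shift_mem_MF hf)]
  congr 2
  funext τ
  rw [modular_T_smul]

/-- Rotation permutes the expansions of the conjugates. -/
theorem lau_conj_T_inv_smul {v : ℍ → ℂ} (hv : IsGamma0Inv N v) (c : Q N)
    (h1 : conj N v c ∈ MF N) (h2 : conj N v (ModularGroup.T⁻¹ • c) ∈ MF N) :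
    lau N ⟨conj N v (ModularGroup.T⁻¹ • c), h2⟩ = rot (zetaU N) (lau N ⟨conj N v c, h1⟩) := by
  rw [← lau_comp_T N h1 (comp_T_mem_MF h1)]
  congr 2
  funext τ
  rw [conj_smul hv]

theorem lauAlg_conj_T_inv_smul {v : ℍ → ℂ} (hv : IsGamma0Inv N v) (c : Q N)
    (h1 : conj N v c ∈ MF N) (h2 : conj N v (ModularGroup.T⁻¹ • c) ∈ MF N) :
    lauAlg N ⟨conj N v (ModularGroup.T⁻¹ • c), h2⟩ =
      rot (zetaU N) (lauAlg N ⟨conj N v c, h1⟩) :=
  lau_conj_T_inv_smul N hv c h1 h2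

end Fermat.Agent.RED
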