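import Fermat.Agent.RED.Gauss.Core
import Fermat.Agent.RED.Gauss.CoreExt
import Fermat.Agent.S24.Descent

/-!
# RED/Gauss: the Gauss datum of the modular function fields
-/

set_option autoImplicit false
noncomputable section
open Polynomial ModularCurve IntermediateField

namespace Fermat.Agent.RED

open Fermat.Agent.S28 Fermat.Agent.RED.Gauss

section SpanL

variable (L : Type*) [Field L] [Algebra ℚ L]
variable {N : ℕ} [NeZero N] {ℓ : ℕ} [Fact ℓ.Prime] {n : ℕ} {u : LaurentSeries ℤ}

theorem coeffEmb_jq : coeffEmb L jq = jqModC L := by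
  rw [← jqModC_rat, coeffEmb, coeffMap_jqModC]

theorem coeffEmb_castLS : coeffEmb L (castLS ℚ u) = castLS L u := by
  rw [coeffEmb, coeffMap_castLS]

/-- the `span` field of `IsCore`, transported to `L((q))`. -/
theorem inSpan_coeffEmb (h : IsCore N ℓ n u) (y : LaurentSeries ℚ)
    (hy : y ∈ modularFunctionFieldFull N) :
    InSpan (k := L) (jqModC L) (castLS L u) n (coeffEmb L y) := by
  obtain ⟨g, f, hg, hrel⟩ := h.span y hy
  refine ⟨(g.map (algebraMap (Rl ℓ) ℚ)).map (algebraMap ℚ L),
    fun i => ((f i).map (algebraMap (Rl ℓ) ℚ)).map (algebraMap ℚ L), ?_, ?_⟩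
  · intro h0
    have h1 := aeval_jqModC_injective L (h0.trans (map_zero _).symm)
    have h2 : g.map (algebraMap (Rl ℓ) ℚ) = 0 :=
      Polynomial.map_injective _ (algebraMap ℚ L).injective (by rw [h1, Polynomial.map_zero])
    exact hg (Polynomial.map_injective _ Subtype.val_injective
      (by rw [h2, Polynomial.map_zero]))
  · have h1 := congrArg (coeffEmb L) hrel
    simp only [map_mul, map_sum, map_pow, ← aeval_map_Rl] at h1
    simp only [coeffEmb, coeffMap_aeval, coeffMap_castLS] at h1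
    rw [← jqModC_rat, coeffMap_jqModC] at h1
    exact h1

theorem mem_adjoin_of_inSpan {k 𝕃 : Type*} [Field k] [Field 𝕃] [Algebra k 𝕃] {J U z : 𝕃} {n : ℕ}
    (h : InSpan (k := k) J U n z) : z ∈ (k⟮J⟯)⟮U⟯ := by
  obtain ⟨g, f, hg, hrel⟩ := h
  have hmem : ∀ p : k[X], aeval J p ∈ (k⟮J⟯)⟮U⟯ := fun p =>
    (k⟮J⟯⟮U⟯).algebraMap_mem (⟨aeval J p, aeval_mem_adjoin_simple_LS J p⟩ : k⟮J⟯)
  have : z = (∑ i, aeval J (f i) * U ^ (i : ℕ)) / aeval J g := by
    rw [← hrel]; field_simp
  rw [this]
  refine div_mem (sum_mem fun i _ => mul_mem (hmem _) (pow_mem ?_ _)) (hmem _)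
  exact mem_adjoin_simple_self _ U

/-- every element of the base-changed function field is in the span of `1, u, …, u^(n-1)`. -/
theorem inSpan_of_mem_baseChange (hn : 0 < n) (h : IsCoreExt N ℓ n u) (z : LaurentSeries L)
    (hz : z ∈ laurentBaseChange L (modularFunctionFieldFull N)) :
    InSpan (k := L) (jqModC L) (castLS L u) n z := by
  classical
  set J := jqModC L with hJ
  set U := castLS L u with hU
  -- the relation for `u ^ n`
  obtain ⟨g, f, hg, hrel⟩ := inSpan_coeffEmb L h.core (castLS ℚ u ^ n) (pow_mem h.u_mem n)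
  rw [map_pow, coeffEmb_castLS] at hrel
  set R : (LaurentSeries L)[X] := ∑ i : Fin n, C (aeval J (f i) / aeval J g) * X ^ (i : ℕ) with hR
  have hRdeg : R.degree < (n : WithBot ℕ) := by
    refine lt_of_le_of_lt (Polynomial.degree_sum_le _ _) ?_
    rw [Finset.sup_lt_iff (by exact_mod_cast WithBot.bot_lt_coe n)]
    intro i _
    refine lt_of_le_of_lt (Polynomial.degree_C_mul_X_pow_le _ _) ?_
    exact_mod_cast i.2
  set Ψ : (LaurentSeries L)[X] := X ^ n - R with hΨ
  have hmonic : Ψ.Monic := Polynomial.monic_X_pow_sub hRdeg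
  have hdeg : Ψ.natDegree = n := by
    have h1 : Ψ.degree = (n : WithBot ℕ) := by
      rw [hΨ, Polynomial.degree_sub_eq_left_of_degree_lt (by rwa [degree_X_pow]), degree_X_pow]
    exact natDegree_eq_of_degree_eq_some h1
  have hroot : Ψ.eval U = 0 := by
    rw [hΨ, eval_sub, eval_pow, eval_X, hR, eval_finsetSum, sub_eq_zero]
    have : U ^ n = (∑ i, aeval J (f i) * U ^ (i : ℕ)) / aeval J g := by
      exact (eq_div_iff hg).mpr (by rw [mul_comm]; exact hrel)
    rw [this, Finset.sum_div]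
    refine Finset.sum_congr rfl fun i _ => ?_
    simp only [eval_mul, eval_C, eval_pow, eval_X]
    ring
  have hcoeff : ∀ i, Ψ.coeff i ∈ L⟮J⟯ := by
    intro i
    rw [hΨ, coeff_sub, hR, finsetSum_coeff]
    refine sub_mem ?_ (sum_mem fun m _ => ?_)
    · rw [coeff_X_pow]; split_ifs
      · exact one_mem _
      · exact zero_mem _
    · rw [coeff_C_mul, coeff_X_pow]
      refine mul_mem (div_mem (aeval_mem_adjoin_simple_LS _ _) (aeval_mem_adjoin_simple_LS _ _)) ?_
      split_ifs
      · exact one_mem _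
      · exact zero_mem _
  refine inSpan_of_mem_adjoin Ψ hmonic hdeg hroot hcoeff ?_
  have hle : laurentBaseChange L (modularFunctionFieldFull N) ≤
      ((L⟮J⟯)⟮U⟯).restrictScalars L := by
    rw [laurentBaseChange, IntermediateField.adjoin_le_iff]
    rintro _ ⟨y, hy, rfl⟩
    exact mem_adjoin_of_inSpan (inSpan_coeffEmb L h.core y hy)
  exact hle hz

end SpanL

section IndepK

theorem sum_aeval_monomials {K : Type*} [Field K] (J U : LaurentSeries K) (n M : ℕ)
    (c : Fin n × ℕ → K) :
    ∑ i : Fin n, aeval J (∑ m ∈ Finset.range M, monomial m (c (i, m))) * U ^ (i : ℕ) =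
      ∑ x ∈ (Finset.univ : Finset (Fin n)) ×ˢ Finset.range M,
        algebraMap K (LaurentSeries K) (c x) * (J ^ x.2 * U ^ (x.1 : ℕ)) := by
  rw [Finset.sum_product]
  refine Finset.sum_congr rfl fun i _ => ?_
  rw [map_sum, Finset.sum_mul]
  refine Finset.sum_congr rfl fun m _ => ?_
  rw [aeval_monomial, mul_assoc]

variable {N : ℕ} [NeZero N] {ℓ : ℕ} [Fact ℓ.Prime] {n : ℕ} {u : LaurentSeries ℤ}

/-- the `indep` field of `IsCore` over an arbitrary field of characteristic `ℓ`. -/
theorem indep_field (h : IsCore N ℓ n u) (k : Type*) [Field k] [CharP k ℓ] (f : Fin n → k[X])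
    (hf : ∑ i, aeval (jqModC k) (f i) * castLS k u ^ (i : ℕ) = 0) : ∀ i, f i = 0 := by
  classical
  set θ : ZMod ℓ →+* k := ZMod.castHom (dvd_refl ℓ) k with hθ
  set e : Fin n × ℕ → LaurentSeries (ZMod ℓ) :=
    fun x => jqModC (ZMod ℓ) ^ x.2 * castLS (ZMod ℓ) u ^ (x.1 : ℕ) with he
  have hbase : ∀ (s : Finset (Fin n × ℕ)) (g : Fin n × ℕ → ZMod ℓ),
      ∑ x ∈ s, algebraMap (ZMod ℓ) (LaurentSeries (ZMod ℓ)) (g x) * e x = 0 →
        ∀ x ∈ s, g x = 0 := by
    intro s g hg x hx
    set M := s.sup (fun y => y.2) + 1 with hM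
    set g' : Fin n × ℕ → ZMod ℓ := fun y => if y ∈ s then g y else 0 with hg'
    have hsub : s ⊆ (Finset.univ : Finset (Fin n)) ×ˢ Finset.range M := by
      intro y hy
      rw [Finset.mem_product]
      refine ⟨Finset.mem_univ _, Finset.mem_range.mpr ?_⟩
      exact Nat.lt_succ_of_le (Finset.le_sup (f := fun y : Fin n × ℕ => y.2) hy)
    have h1 := sum_aeval_monomials (jqModC (ZMod ℓ)) (castLS (ZMod ℓ) u) n M g'
    have h2 : ∑ y ∈ (Finset.univ : Finset (Fin n)) ×ˢ Finset.range M,
        algebraMap (ZMod ℓ) (LaurentSeries (ZMod ℓ)) (g' y) * e y = 0 := by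
      rw [← hg]
      symm
      refine Finset.sum_subset_zero_on_sdiff hsub ?_ ?_
      · intro y hy
        have : y ∉ s := (Finset.mem_sdiff.mp hy).2
        simp [hg', this]
      · intro y hy
        simp [hg', hy]
    rw [h2] at h1
    have h3 := h.indep _ h1 x.1
    have h4 := congrArg (fun p => p.coeff x.2) h3
    simp only [finsetSum_coeff, coeff_monomial, coeff_zero] at h4
    rw [Finset.sum_ite_eq' ] at h4
    have hx2 : x.2 ∈ Finset.range M := (Finset.mem_product.mp (hsub hx)).2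
    rw [if_pos hx2] at h4
    simpa [hg', hx] using h4
  set M := (Finset.univ.sup fun i => (f i).natDegree) + 1 with hM
  have hdeg : ∀ i, (f i).natDegree < M := fun i =>
    Nat.lt_succ_of_le (Finset.le_sup (f := fun i => (f i).natDegree) (Finset.mem_univ i))
  have hfi : ∀ i, f i = ∑ m ∈ Finset.range M, monomial m ((f i).coeff m) := fun i =>
    (f i).as_sum_range' M (hdeg i)
  have h1 := sum_aeval_monomials (jqModC k) (castLS k u) n M (fun x => (f x.1).coeff x.2)
  simp only [← hfi] at h1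
  rw [hf] at h1
  have h2 := Fermat.Agent.S24.coeffMap_relation_descent θ e hbase
    ((Finset.univ : Finset (Fin n)) ×ˢ Finset.range M) (fun x => (f x.1).coeff x.2) (by
      rw [h1]
      refine Finset.sum_congr rfl fun x _ => ?_
      simp only [he, map_mul, map_pow, coeffMap_jqModC, coeffMap_castLS])
  intro i
  ext m
  rw [coeff_zero]
  by_cases hm : m < M
  · exact h2 (i, m) (Finset.mem_product.mpr ⟨Finset.mem_univ _, Finset.mem_range.mpr hm⟩)
  · exact coeff_eq_zero_of_natDegree_lt (lt_of_lt_of_le (hdeg i) (not_lt.mp hm))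

end IndepK

end Fermat.Agent.RED
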