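import Fermat.Agent.RED.Gauss.Core
import Fermat.Agent.RED.Gauss.Adapter

/-!
# (ON): orthonormal bases of finite dimensional subspaces for the Gauss datum

From `CoreData` (finite orthonormal structure `F = ⊕ L(t) w_i`) we prove that every finite
dimensional `L`-subspace `V` of `F` has `finrank L V` elements in the Gauss ring whose reductions
are `k`-linearly independent.
-/

set_option autoImplicit false
noncomputable section

open ModularCurve Polynomial

namespace Fermat.Agent.RED.Gauss

-- `LaurentSeries L` carries two non-defeq `L`-module structures; we always use `Algebra.toModule`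
attribute [-instance] HahnSeries.instModule HahnSeries.instSMul HahnSeries.instDistribMulAction
  HahnSeries.instSMulZeroClass

/-- shortcut instance -/
local instance instMulActionLS (K : Type*) [Field K] : MulAction K (LaurentSeries K) :=
  Algebra.toModule.toMulAction

section Abstract

variable {L k : Type*} [Field L] [Field k]
variable {ML MA Mk : Type*} [AddCommGroup ML] [Module L ML] [AddCommGroup Mk] [Module k Mk]

theorem finrank_le_finrank_inf_ker_add_one (W : Submodule L ML) [Module.Finite L W]
    (φ : ML →ₗ[L] L) :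
    Module.finrank L W ≤ Module.finrank L (W ⊓ LinearMap.ker φ : Submodule L ML) + 1 := by
  have h1 := LinearMap.finrank_range_add_finrank_ker (φ.domRestrict W)
  have h2 : Module.finrank L (LinearMap.range (φ.domRestrict W)) ≤ 1 := by
    have := Submodule.finrank_le (LinearMap.range (φ.domRestrict W))
    rwa [Module.finrank_self] at this
  have h3 : Module.finrank L (LinearMap.ker (φ.domRestrict W)) =
      Module.finrank L (W ⊓ LinearMap.ker φ : Submodule L ML) := by
    rw [LinearMap.ker_domRestrict, ← Submodule.finrank_map_subtype_eq, Submodule.map_comap_subtype]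
  omega

/-- abstract orthonormalisation by pivots -/
theorem exists_orthonormal (iM : MA → ML) (pM : MA → Mk)
    (hN : ∀ f : ML, f ≠ 0 → ∃ (c : L) (p : MA) (φ : ML →ₗ[L] L) (ψ : Mk →ₗ[k] k),
      iM p = c • f ∧ ψ (pM p) ≠ 0 ∧ ∀ p' : MA, φ (iM p') = 0 → ψ (pM p') = 0)
    (d : ℕ) : ∀ W : Submodule L ML, d ≤ Module.finrank L W →
      ∃ p : Fin d → MA, (∀ j, iM (p j) ∈ W) ∧ LinearIndependent k (fun j => pM (p j)) := by
  induction d with
  | zero =>
    intro W _
    exact ⟨Fin.elim0, fun j => j.elim0, linearIndependent_empty_type⟩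
  | succ d ih =>
    intro W hW
    have hpos : 0 < Module.finrank L W := by omega
    have : Module.Finite L W := Module.finite_of_finrank_pos hpos
    have : Nontrivial W := Module.nontrivial_of_finrank_pos hpos
    obtain ⟨f, hf⟩ := exists_ne (0 : W)
    have hf' : (f : ML) ≠ 0 := fun h => hf (Subtype.ext h)
    obtain ⟨c, p, φ, ψ, hp, hψ, hφψ⟩ := hN f hf'
    have hW' : d ≤ Module.finrank L (W ⊓ LinearMap.ker φ : Submodule L ML) := by
      have := finrank_le_finrank_inf_ker_add_one W φ
      omega
    obtain ⟨p', hp'W, hp'ind⟩ := ih _ hW'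
    refine ⟨Fin.cons p p', ?_, ?_⟩
    · intro j
      refine Fin.cases ?_ (fun j => ?_) j
      · rw [Fin.cons_zero, hp]; exact W.smul_mem c f.2
      · rw [Fin.cons_succ]; exact (hp'W j).1
    · have hfun : (fun j => pM ((Fin.cons p p' : Fin (d + 1) → MA) j)) =
          Fin.cons (pM p) (fun j => pM (p' j)) := by
        funext j
        refine Fin.cases ?_ (fun j => ?_) j
        · simp
        · simp
      rw [hfun, linearIndependent_finCons]
      refine ⟨hp'ind, fun hmem => hψ ?_⟩
      have hle : Submodule.span k (Set.range fun j => pM (p' j)) ≤ LinearMap.ker ψ := by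
        rw [Submodule.span_le]
        rintro _ ⟨j, rfl⟩
        exact hφψ _ (hp'W j).2
      exact hle hmem

end Abstract

variable {L : Type*} [Field L] {A : ValuationSubring L}
variable {k : Type*} [Field k] {π : A →+* k}
variable {F : IntermediateField L (LaurentSeries L)}
variable {n : ℕ} {t : LaurentSeries A} {w : Fin n → LaurentSeries A}

/-- orthonormalisation in `L[X]^n` -/
theorem exists_orthonormal_poly (π : A →+* k) (d : ℕ) (W : Submodule L (Fin n → L[X]))
    (hW : d ≤ Module.finrank L W) :
    ∃ p : Fin d → (Fin n → A[X]), (∀ j, (fun i => (p j i).map A.subtype) ∈ W) ∧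
      LinearIndependent k (fun j => (fun i => (p j i).map π : Fin n → k[X])) := by
  refine exists_orthonormal (L := L) (k := k) (MA := Fin n → A[X])
    (fun p => fun i => (p i).map A.subtype) (fun p => fun i => (p i).map π) ?_ d W hW
  intro f hf
  have hf' : ∃ i, f i ≠ 0 := by
    by_contra hcon
    push Not at hcon
    exact hf (funext hcon)
  obtain ⟨c, p, _, hp, i, hi⟩ := exists_normalize π f hf'
  obtain ⟨m, hm⟩ : ∃ m, ((p i).map π).coeff m ≠ 0 := by
    by_contra hcon
    push Not at hcon
    exact hi (Polynomial.ext (by simpa using hcon))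
  refine ⟨c⁻¹, p, (Polynomial.lcoeff L m).comp (LinearMap.proj i),
    (Polynomial.lcoeff k m).comp (LinearMap.proj i), ?_, ?_, ?_⟩
  · funext i'
    rw [hp i', Pi.smul_apply, Polynomial.smul_eq_C_mul]
  · simpa using hm
  · intro p' h0
    simp only [LinearMap.comp_apply, LinearMap.proj_apply, Polynomial.lcoeff_apply,
      Polynomial.coeff_map] at h0 ⊢
    have : (p' i).coeff m = 0 := Subtype.ext h0
    rw [this, map_zero]

/-- `f ↦ ∑ f_i(t) w_i` over `L` -/
def PhiL (t : LaurentSeries A) (w : Fin n → LaurentSeries A) :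
    (Fin n → L[X]) →ₗ[L] LaurentSeries L where
  toFun f := ∑ i, aeval (iota A t) (f i) * iota A (w i)
  map_add' f g := by
    rw [← Finset.sum_add_distrib]
    exact Finset.sum_congr rfl fun i _ => by rw [Pi.add_apply, map_add, add_mul]
  map_smul' c f := by
    have hs : ∀ z : LaurentSeries L, c • z = algebraMap L (LaurentSeries L) c * z :=
      fun z => Algebra.smul_def c z
    rw [RingHom.id_apply, hs, Finset.mul_sum]
    exact Finset.sum_congr rfl fun i _ => by
      rw [Pi.smul_apply, Polynomial.smul_eq_C_mul, map_mul, aeval_C, mul_assoc]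

theorem PhiL_apply (f : Fin n → L[X]) :
    PhiL t w f = ∑ i, aeval (iota A t) (f i) * iota A (w i) := rfl

theorem mul_PhiL (g : L[X]) (f : Fin n → L[X]) :
    aeval (iota A t) g * PhiL t w f = PhiL t w (fun i => g * f i) := by
  rw [PhiL_apply, PhiL_apply, Finset.mul_sum]
  exact Finset.sum_congr rfl fun i _ => by rw [map_mul, mul_assoc]

theorem PhiL_map (p : Fin n → A[X]) :
    PhiL t w (fun i => (p i).map A.subtype) = iota A (comb t w p) := by
  rw [PhiL_apply, iota_comb]

/-- `f ↦ ∑ f_i(t̄) w̄_i` over `k` -/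
def PhiK (π : A →+* k) (t : LaurentSeries A) (w : Fin n → LaurentSeries A) :
    (Fin n → k[X]) →ₗ[k] LaurentSeries k where
  toFun f := ∑ i, aeval (pi π t) (f i) * pi π (w i)
  map_add' f g := by
    rw [← Finset.sum_add_distrib]
    exact Finset.sum_congr rfl fun i _ => by rw [Pi.add_apply, map_add, add_mul]
  map_smul' c f := by
    have hs : ∀ z : LaurentSeries k, c • z = algebraMap k (LaurentSeries k) c * z :=
      fun z => Algebra.smul_def c z
    rw [RingHom.id_apply, hs, Finset.mul_sum]
    exact Finset.sum_congr rfl fun i _ => by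
      rw [Pi.smul_apply, Polynomial.smul_eq_C_mul, map_mul, aeval_C, mul_assoc]

theorem PhiK_apply (f : Fin n → k[X]) :
    PhiK π t w f = ∑ i, aeval (pi π t) (f i) * pi π (w i) := rfl

theorem PhiK_map (p : Fin n → A[X]) :
    PhiK π t w (fun i => (p i).map π) = pi π (comb t w p) := by
  rw [PhiK_apply, pi_comb]

namespace CoreData

variable (H : CoreData π F n t w)
include H

theorem ker_PhiK : LinearMap.ker (PhiK π t w) = ⊥ := by
  rw [LinearMap.ker_eq_bot']
  intro f hf
  exact funext (H.indep f hf)

theorem ker_PhiL : LinearMap.ker (PhiL t w) = ⊥ := by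
  rw [LinearMap.ker_eq_bot']
  intro f hf
  by_contra hne
  have hf' : ∃ i, f i ≠ 0 := by
    by_contra hcon
    push Not at hcon
    exact hne (funext hcon)
  obtain ⟨c, p, hc, hp, h⟩ := H.exists_norm_comb hf'
  rw [PhiL_apply, h] at hf
  refine mul_ne_zero ?_ (iota_ne_zero_of_pi_ne_zero π (H.pi_comb_ne_zero hp)) hf
  rw [Ne, map_eq_zero]; exact hc

/-- common denominator for a finite dimensional subspace -/
theorem exists_common_denominator (V : Submodule L F) (hV : V.FG) :
    ∃ G : L[X], G ≠ 0 ∧ ∀ y ∈ V, ∃ f : Fin n → L[X],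
      aeval (iota A t) G * (y : LaurentSeries L) = PhiL t w f := by
  induction V, hV using Submodule.fg_induction with
  | singleton x =>
    obtain ⟨g, f, hg, hgf⟩ := H.span x x.2
    refine ⟨g, hg, fun y hy => ?_⟩
    obtain ⟨c, rfl⟩ := Submodule.mem_span_singleton.mp hy
    refine ⟨c • f, ?_⟩
    have hs : ∀ z : LaurentSeries L, c • z = algebraMap L (LaurentSeries L) c * z :=
      fun z => Algebra.smul_def c z
    rw [(PhiL t w).map_smul c f, PhiL_apply, ← hgf, hs, Algebra.smul_def,
      IntermediateField.coe_mul, coe_algebraMap]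
    ring
  | sup V₁ V₂ _ _ ih₁ ih₂ =>
    obtain ⟨G₁, hG₁, h₁⟩ := ih₁
    obtain ⟨G₂, hG₂, h₂⟩ := ih₂
    refine ⟨G₁ * G₂, mul_ne_zero hG₁ hG₂, fun y hy => ?_⟩
    obtain ⟨y₁, hy₁, y₂, hy₂, rfl⟩ := Submodule.mem_sup.mp hy
    obtain ⟨f₁, hf₁⟩ := h₁ y₁ hy₁
    obtain ⟨f₂, hf₂⟩ := h₂ y₂ hy₂
    refine ⟨(fun i => G₂ * f₁ i) + (fun i => G₁ * f₂ i), ?_⟩
    rw [map_add, ← mul_PhiL, ← mul_PhiL, ← hf₁, ← hf₂, map_mul]
    show _ * ((y₁ : LaurentSeries L) + (y₂ : LaurentSeries L)) = _
    ring

/-- **(ON)**, explicit form. -/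
theorem exists_lifts (V : Submodule L F) [FiniteDimensional L V] :
    ∃ x : Fin (Module.finrank L V) → gO H.toNorm, (∀ j, (x j : F) ∈ V) ∧
      LinearIndependent k (fun j => gRed H.toNorm (x j)) := by
  obtain ⟨G, hG, hGV⟩ := H.exists_common_denominator V (Submodule.fg_iff_finiteDimensional V |>.mpr
    inferInstance)
  have hG' : aeval (iota A t) G ≠ 0 := H.aeval_iota_ne_zero hG
  -- multiplication by `G(t)` on `F`
  set μ : F →ₗ[L] LaurentSeries L :=
    (LinearMap.mulLeft L (aeval (iota A t) G)).comp F.val.toLinearMap with hμ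
  have hμ_apply : ∀ y : F, μ y = aeval (iota A t) G * (y : LaurentSeries L) := fun y => rfl
  have hμinj : Function.Injective μ := by
    intro y z hyz
    rw [hμ_apply, hμ_apply] at hyz
    exact Subtype.ext (mul_left_cancel₀ hG' hyz)
  have hΦinj : Function.Injective (PhiL t w) := LinearMap.ker_eq_bot.mp H.ker_PhiL
  set W : Submodule L (Fin n → L[X]) := (V.map μ).comap (PhiL t w) with hW
  have hWmap : W.map (PhiL t w) = V.map μ := by
    rw [hW, Submodule.map_comap_eq, inf_eq_right]
    rintro _ ⟨y, hy, rfl⟩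
    obtain ⟨f, hf⟩ := hGV y hy
    exact ⟨f, hf.symm⟩
  have hfr : Module.finrank L V = Module.finrank L W := by
    rw [(Submodule.equivMapOfInjective μ hμinj V).finrank_eq, ← hWmap,
      ← (Submodule.equivMapOfInjective (PhiL t w) hΦinj W).finrank_eq]
  obtain ⟨p, hpW, hpind⟩ := exists_orthonormal_poly π (Module.finrank L V) W hfr.le
  obtain ⟨c, P, hc, hP, hGP⟩ := H.exists_norm_poly hG
  have hPne : pi π (evA t P) ≠ 0 := H.pi_evA_ne_zero hP
  have hy : ∀ j, ∃ y ∈ V, aeval (iota A t) G * ((y : F) : LaurentSeries L) =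
      iota A (comb t w (p j)) := by
    intro j
    obtain ⟨y, hyV, hy⟩ := hpW j
    exact ⟨y, hyV, by rw [← hμ_apply, hy, PhiL_map]⟩
  choose y hyV hy using hy
  have hrel : ∀ j, (((algebraMap L F c * y j : F)) : LaurentSeries L) * iota A (evA t P) =
      iota A (comb t w (p j)) := by
    intro j
    rw [← hy j, hGP, IntermediateField.coe_mul, coe_algebraMap]
    ring
  have hmem : ∀ j, (algebraMap L F c * y j : F) ∈ gO H.toNorm := fun j => ⟨_, _, hPne, hrel j⟩
  refine ⟨fun j => ⟨algebraMap L F c * y j, hmem j⟩, fun j => ?_, ?_⟩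
  · show algebraMap L F c * y j ∈ V
    rw [← Algebra.smul_def]
    exact V.smul_mem c (hyV j)
  have hred : (fun j => gRed H.toNorm ⟨algebraMap L F c * y j, hmem j⟩) =
      fun j => ((LinearMap.mulLeft k (pi π (evA t P))⁻¹).comp (PhiK π t w))
        (fun i => (p j i).map π) := by
    funext j
    rw [gRed_eq H.toNorm ⟨algebraMap L F c * y j, hmem j⟩ hPne (hrel j), LinearMap.comp_apply,
      PhiK_map,
      LinearMap.mulLeft_apply, div_eq_inv_mul]
  rw [hred]
  refine hpind.map' _ ?_
  rw [LinearMap.ker_comp, LinearMap.ker_eq_bot.mpr, Submodule.comap_bot, H.ker_PhiK]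
  intro a b hab
  exact mul_left_cancel₀ (inv_ne_zero hPne) hab

/-- **(ON)**, explicit form with values in the residue field `gFb` (no module diamond). -/
theorem exists_lifts' (V : Submodule L F) [FiniteDimensional L V] :
    ∃ x : Fin (Module.finrank L V) → gO H.toNorm, (∀ j, (x j : F) ∈ V) ∧
      LinearIndependent k (fun j => gRedF H.toNorm (x j)) := by
  obtain ⟨x, hxV, hx⟩ := H.exists_lifts V
  refine ⟨x, hxV, LinearIndependent.of_comp (gFb H.toNorm).val.toLinearMap ?_⟩
  exact hx

/-- **(ON)** in the shape of `DeuringHyp.on`. -/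
theorem on (Fb : IntermediateField k (LaurentSeries k)) (h : gFb H.toNorm = Fb)
    (V : Submodule L F) (hV : FiniteDimensional L V) :
    Module.finrank L V ≤ Module.finrank k ((H.toNorm.redData Fb h).redSub V) := by
  obtain ⟨x, hxV, hx⟩ := H.exists_lifts V
  have := ((H.toNorm.redData Fb h).finrank_redSub_le V).1
  have h1 : LinearIndependent k (fun j =>
      (⟨gRedTo H.toNorm Fb h (x j), x j, hxV j, rfl⟩ : (H.toNorm.redData Fb h).redSub V)) := by
    refine LinearIndependent.of_comp
      (Fb.val.toLinearMap.comp ((H.toNorm.redData Fb h).redSub V).subtype) ?_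
    exact hx
  simpa using h1.fintype_card_le_finrank

/-- **(ON)** for any `RedData` whose ring contains the Gauss ring and whose reduction map is
`gRed` there. -/
theorem on_of {Fb : IntermediateField k (LaurentSeries k)} (R : RedData L F k Fb)
    (hO : ∀ x : F, x ∈ gO H.toNorm → x ∈ R.O)
    (hred : ∀ (x : F) (hx : x ∈ gO H.toNorm) (hx' : x ∈ R.O),
      ((R.red ⟨x, hx'⟩ : Fb) : LaurentSeries k) = gRed H.toNorm ⟨x, hx⟩)
    (V : Submodule L F) (hV : FiniteDimensional L V) :
    Module.finrank L V ≤ Module.finrank k (R.redSub V) := by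
  obtain ⟨x, hxV, hx⟩ := H.exists_lifts V
  have := (R.finrank_redSub_le V).1
  have h1 : LinearIndependent k (fun j =>
      (⟨R.red ⟨(x j : F), hO _ (x j).2⟩, ⟨(x j : F), hO _ (x j).2⟩, hxV j, rfl⟩ :
        R.redSub V)) := by
    refine LinearIndependent.of_comp (Fb.val.toLinearMap.comp (R.redSub V).subtype) ?_
    have hfun : (⇑(Fb.val.toLinearMap.comp (R.redSub V).subtype) ∘ fun j =>
        (⟨R.red ⟨(x j : F), hO _ (x j).2⟩, ⟨(x j : F), hO _ (x j).2⟩, hxV j, rfl⟩ :
          R.redSub V)) = fun j => gRed H.toNorm (x j) := by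
      funext j
      exact hred _ (x j).2 _
    rw [hfun]
    exact hx
  simpa using h1.fintype_card_le_finrank

end CoreData

end Fermat.Agent.RED.Gauss
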